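/-
GATE-J / J2-DESC leaf (helper80): the field-theoretic core of the descent `L → K`
(`K ⊆ L`, `L` algebraically closed).

* `exists_algEquiv_apply_eq_add`    : a transcendental `x ∈ L` is moved to `x + c` (any `c ∈ K`) by some
                                       `σ ∈ Aut(L/K)`.
* `infinite_orbit_of_transcendental`: hence (char 0) its `Aut(L/K)`-orbit is infinite.
* `isAlgebraic_of_finite_orbit`, `mem_range_algebraMap_of_finite_orbit` : elements with finite orbit
                                       are algebraic over `K` (lie in `K` if `K` is algebraically closed).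
* subgroup versions (finite-index subgroups of `Aut(L/K)`), and the coefficientwise corollary for
  Hahn/Laurent series.

Mathlib only.
-/
import Mathlib

set_option autoImplicit false

namespace Fermat.Agent.GJ.Desc.AutOrbit

open MvPolynomial

section Translate

variable {K : Type*} [CommRing K] {ι : Type*}

/-- The `K`-algebra endomorphism `X_i ↦ X_i + c_i` of `K[X_i]`. -/
noncomputable def translateHom (c : ι → K) : MvPolynomial ι K →ₐ[K] MvPolynomial ι K :=
  aeval fun i => X i + C (c i)

@[simp] lemma translateHom_X (c : ι → K) (i : ι) : translateHom c (X i) = X i + C (c i) := by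
  simp [translateHom]

lemma translateHom_comp (c d : ι → K) :
    (translateHom c).comp (translateHom d) = translateHom (fun i => c i + d i) := by
  apply MvPolynomial.algHom_ext
  intro i
  simp only [AlgHom.comp_apply, translateHom_X, map_add, algHom_C,
    MvPolynomial.algebraMap_eq]
  ring

lemma translateHom_zero : translateHom (fun _ : ι => (0 : K)) = AlgHom.id K _ := by
  apply MvPolynomial.algHom_ext
  intro i
  simp

/-- The `K`-algebra automorphism `X_i ↦ X_i + c_i` of `K[X_i]`. -/
noncomputable def translateEquiv (c : ι → K) : MvPolynomial ι K ≃ₐ[K] MvPolynomial ι K :=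
  AlgEquiv.ofAlgHom (translateHom c) (translateHom fun i => -c i)
    (by rw [translateHom_comp]; simpa using translateHom_zero)
    (by rw [translateHom_comp]; simpa using translateHom_zero)

@[simp] lemma translateEquiv_X (c : ι → K) (i : ι) :
    translateEquiv c (X i) = X i + C (c i) := by
  simp [translateEquiv]

end Translate

section Extend

variable {K L : Type*} [Field K] [Field L] [Algebra K L] [IsAlgClosed L]

/-- A `K`-algebra automorphism of the polynomial ring on a transcendence basis of `L/K` extends to a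
`K`-algebra automorphism of the algebraically closed field `L`. -/
theorem exists_algEquiv_extending {ι : Type*} (v : ι → L) (hv : IsTranscendenceBasis K v)
    (e₀ : MvPolynomial ι K ≃ₐ[K] MvPolynomial ι K) :
    ∃ σ : L ≃ₐ[K] L, ∀ P : MvPolynomial ι K, σ (aeval v P) = aeval v (e₀ P) := by
  have hcl := IsAlgClosed.isAlgClosure_of_transcendence_basis v hv
  let e : Algebra.adjoin K (Set.range v) ≃+* Algebra.adjoin K (Set.range v) :=
    hv.1.aevalEquiv.symm.toRingEquiv.trans (e₀.toRingEquiv.trans hv.1.aevalEquiv.toRingEquiv)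
  have key : ∀ P : MvPolynomial ι K,
      (IsAlgClosure.equivOfEquiv L L e) (aeval v P) = aeval v (e₀ P) := by
    intro P
    have h1 : ∀ Q : MvPolynomial ι K, aeval v Q =
        algebraMap (Algebra.adjoin K (Set.range v)) L (hv.1.aevalEquiv Q) := by
      intro Q
      rw [hv.1.algebraMap_aevalEquiv]
    rw [h1 P, h1 (e₀ P), IsAlgClosure.equivOfEquiv_algebraMap]
    congr 1
    simp [e]
  refine ⟨AlgEquiv.ofRingEquiv (f := IsAlgClosure.equivOfEquiv L L e) ?_, fun P => key P⟩
  intro a
  have h := key (C a)
  have hC : e₀ (C a) = C a := by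
    rw [← MvPolynomial.algebraMap_eq]
    exact e₀.commutes a
  rw [hC] at h
  simpa using h

/-- A transcendental element `x` of an algebraically closed field `L ⊇ K` is moved to `x + c`
(for any `c ∈ K`) by some `K`-automorphism of `L`. -/
theorem exists_algEquiv_apply_eq_add (x : L) (hx : Transcendental K x) (c : K) :
    ∃ σ : L ≃ₐ[K] L, σ x = x + algebraMap K L c := by
  classical
  have hind : AlgebraicIndepOn K id ({x} : Set L) :=
    algebraicIndependent_unique_type_iff.mpr hx
  obtain ⟨t, hxt, ht⟩ := exists_isTranscendenceBasis_superset hind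
  have hxt' : x ∈ t := hxt rfl
  let x₀ : t := ⟨x, hxt'⟩
  obtain ⟨σ, hσ⟩ := exists_algEquiv_extending ((↑) : t → L) ht
    (translateEquiv fun i => if i = x₀ then c else 0)
  refine ⟨σ, ?_⟩
  have h := hσ (X x₀)
  simpa [x₀] using h

end Extend

section Orbit

variable {K L : Type*} [Field K] [Field L] [Algebra K L] [IsAlgClosed L]

/-- In characteristic zero, a transcendental element has infinite orbit under `Aut(L/K)`. -/
theorem infinite_orbit_of_transcendental [CharZero K] (x : L) (hx : Transcendental K x) :
    (Set.range fun σ : L ≃ₐ[K] L => σ x).Infinite := by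
  have : CharZero L := charZero_of_injective_algebraMap (algebraMap K L).injective
  have hinj : Function.Injective fun n : ℕ => x + (n : L) := by
    intro a b hab
    have : (a : L) = b := add_left_cancel hab
    exact_mod_cast this
  refine Set.infinite_of_injective_forall_mem hinj ?_
  intro n
  obtain ⟨σ, hσ⟩ := exists_algEquiv_apply_eq_add x hx (n : K)
  exact ⟨σ, by simpa using hσ⟩

/-- An element with finite `Aut(L/K)`-orbit is algebraic over `K` (char. 0). -/
theorem isAlgebraic_of_finite_orbit [CharZero K] (x : L)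
    (h : (Set.range fun σ : L ≃ₐ[K] L => σ x).Finite) : IsAlgebraic K x := by
  by_contra hx
  exact infinite_orbit_of_transcendental x hx h

/-- If `K` is algebraically closed (char. 0), an element of `L` with finite `Aut(L/K)`-orbit lies in
`K`. -/
theorem mem_range_algebraMap_of_finite_orbit [CharZero K] [IsAlgClosed K] (x : L)
    (h : (Set.range fun σ : L ≃ₐ[K] L => σ x).Finite) : x ∈ Set.range (algebraMap K L) := by
  have hi : IsIntegral K x := (isAlgebraic_of_finite_orbit x h).isIntegral
  have hd : (minpoly K x).degree = 1 :=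
    IsAlgClosed.degree_eq_one_of_irreducible K (minpoly.irreducible hi)
  exact minpoly.mem_range_of_degree_eq_one K x hd

/-- Family version: if the family `a : ι → L` has finite orbit under `Aut(L/K)` (acting
componentwise), every `a i` is algebraic over `K`. -/
theorem isAlgebraic_of_finite_orbit_fun [CharZero K] {ι : Type*} (a : ι → L)
    (h : (Set.range fun σ : L ≃ₐ[K] L => fun i => σ (a i)).Finite) (i : ι) :
    IsAlgebraic K (a i) := by
  apply isAlgebraic_of_finite_orbit
  refine (h.image fun b : ι → L => b i).subset ?_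
  rintro _ ⟨σ, rfl⟩
  exact ⟨fun j => σ (a j), ⟨σ, rfl⟩, rfl⟩

/-- Family version over an algebraically closed `K`. -/
theorem mem_range_algebraMap_of_finite_orbit_fun [CharZero K] [IsAlgClosed K] {ι : Type*}
    (a : ι → L) (h : (Set.range fun σ : L ≃ₐ[K] L => fun i => σ (a i)).Finite) (i : ι) :
    a i ∈ Set.range (algebraMap K L) := by
  apply mem_range_algebraMap_of_finite_orbit
  refine (h.image fun b : ι → L => b i).subset ?_
  rintro _ ⟨σ, rfl⟩
  exact ⟨fun j => σ (a j), ⟨σ, rfl⟩, rfl⟩

omit [IsAlgClosed L] in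
/-- Subgroup version: if the orbit of `x` under a finite-index subgroup `H ≤ Aut(L/K)` is finite,
then so is the full orbit. -/
theorem finite_orbit_of_finite_orbit_subgroup (H : Subgroup (L ≃ₐ[K] L)) [H.FiniteIndex] (x : L)
    (h : (Set.range fun σ : H => (σ : L ≃ₐ[K] L) x).Finite) :
    (Set.range fun σ : L ≃ₐ[K] L => σ x).Finite := by
  classical
  have : Finite ((L ≃ₐ[K] L) ⧸ H) := Subgroup.finite_quotient_of_finiteIndex
  have hU : (⋃ q : (L ≃ₐ[K] L) ⧸ H,
      (fun y : L => (q.out : L ≃ₐ[K] L) y) '' (Set.range fun σ : H => (σ : L ≃ₐ[K] L) x)).Finite :=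
    Set.finite_iUnion fun q => h.image _
  refine hU.subset ?_
  rintro _ ⟨σ, rfl⟩
  rw [Set.mem_iUnion]
  refine ⟨(σ : (L ≃ₐ[K] L) ⧸ H), ?_⟩
  have hmem : ((σ : (L ≃ₐ[K] L) ⧸ H).out)⁻¹ * σ ∈ H := by
    rw [← QuotientGroup.eq, QuotientGroup.out_eq']
  refine ⟨(((σ : (L ≃ₐ[K] L) ⧸ H).out)⁻¹ * σ) x, ⟨⟨_, hmem⟩, rfl⟩, ?_⟩
  show ((σ : (L ≃ₐ[K] L) ⧸ H).out) ((((σ : (L ≃ₐ[K] L) ⧸ H).out)⁻¹ * σ) x) = σ x
  rw [← AlgEquiv.mul_apply, mul_inv_cancel_left]

/-- Subgroup version of `isAlgebraic_of_finite_orbit`. -/
theorem isAlgebraic_of_finite_orbit_subgroup [CharZero K] (H : Subgroup (L ≃ₐ[K] L))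
    [H.FiniteIndex] (x : L) (h : (Set.range fun σ : H => (σ : L ≃ₐ[K] L) x).Finite) :
    IsAlgebraic K x :=
  isAlgebraic_of_finite_orbit x (finite_orbit_of_finite_orbit_subgroup H x h)

/-- Subgroup version of `mem_range_algebraMap_of_finite_orbit`. -/
theorem mem_range_algebraMap_of_finite_orbit_subgroup [CharZero K] [IsAlgClosed K]
    (H : Subgroup (L ≃ₐ[K] L)) [H.FiniteIndex] (x : L)
    (h : (Set.range fun σ : H => (σ : L ≃ₐ[K] L) x).Finite) :
    x ∈ Set.range (algebraMap K L) :=
  mem_range_algebraMap_of_finite_orbit x (finite_orbit_of_finite_orbit_subgroup H x h)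

/-- An element fixed by a finite-index subgroup of `Aut(L/K)` lies in `K` (`K` alg. closed,
char. 0). -/
theorem mem_range_algebraMap_of_fixed_subgroup [CharZero K] [IsAlgClosed K]
    (H : Subgroup (L ≃ₐ[K] L)) [H.FiniteIndex] (x : L)
    (h : ∀ σ ∈ H, σ x = x) : x ∈ Set.range (algebraMap K L) := by
  apply mem_range_algebraMap_of_finite_orbit_subgroup H x
  refine (Set.finite_singleton x).subset ?_
  rintro _ ⟨σ, rfl⟩
  exact h σ σ.2

end Orbit

section Hahn

variable {K L : Type*} [Field K] [Field L] [Algebra K L] [IsAlgClosed L]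
variable {Γ : Type*} [PartialOrder Γ]

omit [IsAlgClosed L] in
/-- Coefficientwise descent: a Hahn series over `L` all of whose coefficients lie in `K` comes from
a Hahn series over `K`. -/
theorem exists_hahnSeries_map_eq (f : HahnSeries Γ L)
    (h : ∀ γ, f.coeff γ ∈ Set.range (algebraMap K L)) :
    ∃ g : HahnSeries Γ K, g.map (algebraMap K L) = f := by
  classical
  choose b hb using h
  have hsupp : Function.support (fun γ => if f.coeff γ = 0 then (0 : K) else b γ) ⊆ f.support := by
    intro γ hγ
    rw [Function.mem_support] at hγ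
    rw [HahnSeries.mem_support]
    intro h0
    exact hγ (if_pos h0)
  refine ⟨⟨fun γ => if f.coeff γ = 0 then 0 else b γ, f.isPWO_support.mono hsupp⟩, ?_⟩
  ext γ
  rw [HahnSeries.map_coeff]
  show algebraMap K L (if f.coeff γ = 0 then 0 else b γ) = f.coeff γ
  split_ifs with h0
  · rw [map_zero, h0]
  · exact hb γ

/-- A Hahn series over `L` with finite orbit under the coefficientwise action of `Aut(L/K)`
(`K` algebraically closed of characteristic zero) has all its coefficients in `K`. -/
theorem exists_hahnSeries_map_eq_of_finite_orbit [CharZero K] [IsAlgClosed K] (f : HahnSeries Γ L)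
    (h : (Set.range fun σ : L ≃ₐ[K] L => f.map (σ : L →+* L)).Finite) :
    ∃ g : HahnSeries Γ K, g.map (algebraMap K L) = f := by
  apply exists_hahnSeries_map_eq
  intro γ
  apply mem_range_algebraMap_of_finite_orbit
  refine (h.image fun y : HahnSeries Γ L => y.coeff γ).subset ?_
  rintro _ ⟨σ, rfl⟩
  exact ⟨f.map (σ : L →+* L), ⟨σ, rfl⟩, rfl⟩

/-- Subgroup version of `exists_hahnSeries_map_eq_of_finite_orbit`. -/
theorem exists_hahnSeries_map_eq_of_finite_orbit_subgroup [CharZero K] [IsAlgClosed K]
    (H : Subgroup (L ≃ₐ[K] L)) [H.FiniteIndex] (f : HahnSeries Γ L)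
    (h : (Set.range fun σ : H => f.map ((σ : L ≃ₐ[K] L) : L →+* L)).Finite) :
    ∃ g : HahnSeries Γ K, g.map (algebraMap K L) = f := by
  apply exists_hahnSeries_map_eq
  intro γ
  apply mem_range_algebraMap_of_finite_orbit_subgroup H
  refine (h.image fun y : HahnSeries Γ L => y.coeff γ).subset ?_
  rintro _ ⟨σ, rfl⟩
  exact ⟨f.map ((σ : L ≃ₐ[K] L) : L →+* L), ⟨σ, rfl⟩, rfl⟩

end Hahn

end Fermat.Agent.GJ.Desc.AutOrbit
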