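/-
GATE-J / J2-DESC (helper84): descent of divisor classes along a change of algebraically closed
constant fields `K ⊆ L` for the prelude function fields `laurentBaseChange · F₀`.
This file: the base-change ring hom `bcHom : F_K →+* F_L` (coefficientwise), its basic properties,
linear disjointness, and the coefficientwise action of `L ≃ₐ[K] L`.
Mathlib + Prelude only.
-/
import Fermat.Prelude.Def_ModularCurve_ArithmeticGalois

set_option autoImplicit false
set_option linter.unusedSectionVars false
set_option linter.unusedVariables false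

noncomputable section

open HahnSeries IntermediateField AlgebraicCurve ModularCurve

namespace Fermat.Agent.GJ.Desc

section CoeffMap

variable {R S : Type*} [CommRing R] [CommRing S]

theorem coeffMap_injective {f : R →+* S} (hf : Function.Injective f) :
    Function.Injective (coeffMap f) := by
  intro x y h
  ext k
  have := congrArg (fun z => z.coeff k) h
  simp only [coeffMap_coeff] at this
  exact hf this

end CoeffMap

variable (K L : Type*) [Field K] [Field L] [Algebra ℚ K] [Algebra ℚ L] [Algebra K L]
  [IsScalarTower ℚ K L]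
variable (F₀ : IntermediateField ℚ (LaurentSeries ℚ))

theorem coeffMap_algebraMap' (a : K) :
    coeffMap (algebraMap K L) (algebraMap K (LaurentSeries K) a)
      = algebraMap L (LaurentSeries L) (algebraMap K L a) := by
  rw [algebraMap_laurentSeries_eq_single, algebraMap_laurentSeries_eq_single, coeffMap_single]

theorem coeffMap_coeffEmb' (x : LaurentSeries ℚ) :
    coeffMap (algebraMap K L) (coeffEmb K x) = coeffEmb L x := by
  rw [coeffEmb, coeffMap_coeffMap, coeffEmb]
  exact coeffMap_congr (RingHom.ext fun c => (IsScalarTower.algebraMap_apply ℚ K L c).symm) x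

variable {K F₀} in
theorem coeffMap_mem_laurentBaseChange' {x : LaurentSeries K}
    (hx : x ∈ laurentBaseChange K F₀) :
    coeffMap (algebraMap K L) x ∈ laurentBaseChange L F₀ := by
  rw [mem_laurentBaseChange_iff] at hx
  induction hx using Subfield.closure_induction with
  | mem y hy =>
      rcases hy with ⟨a, rfl⟩ | ⟨z, hz, rfl⟩
      · rw [coeffMap_algebraMap']
        exact (laurentBaseChange L F₀).algebraMap_mem _
      · rw [coeffMap_coeffEmb']
        exact coeffEmb_mem_laurentBaseChange L hz
  | one => simp
  | add x y _ _ hx hy => simpa using add_mem hx hy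
  | neg x _ hx => simpa using neg_mem hx
  | inv x _ hx => simpa using inv_mem hx
  | mul x y _ _ hx hy => simpa using mul_mem hx hy

/-- the coefficientwise base change `F_K → F_L` -/
def bcHom : ↥(laurentBaseChange K F₀) →+* ↥(laurentBaseChange L F₀) where
  toFun x := ⟨coeffMap (algebraMap K L) (x : LaurentSeries K),
    coeffMap_mem_laurentBaseChange' L x.2⟩
  map_one' := Subtype.ext (map_one (coeffMap (algebraMap K L)))
  map_mul' x y := Subtype.ext (map_mul (coeffMap (algebraMap K L)) _ _)
  map_zero' := Subtype.ext (map_zero (coeffMap (algebraMap K L)))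
  map_add' x y := Subtype.ext (map_add (coeffMap (algebraMap K L)) _ _)

@[simp]
theorem coe_bcHom (x : ↥(laurentBaseChange K F₀)) :
    ((bcHom K L F₀ x : ↥(laurentBaseChange L F₀)) : LaurentSeries L)
      = coeffMap (algebraMap K L) (x : LaurentSeries K) := rfl

theorem bcHom_algebraMap (a : K) :
    bcHom K L F₀ (algebraMap K ↥(laurentBaseChange K F₀) a)
      = algebraMap L ↥(laurentBaseChange L F₀) (algebraMap K L a) :=
  Subtype.ext (coeffMap_algebraMap' K L a)

theorem bcHom_injective : Function.Injective (bcHom K L F₀) :=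
  (bcHom K L F₀).injective

theorem bcHom_coeffEmb {x : LaurentSeries ℚ} (hx : x ∈ F₀) :
    bcHom K L F₀ ⟨coeffEmb K x, coeffEmb_mem_laurentBaseChange K hx⟩
      = ⟨coeffEmb L x, coeffEmb_mem_laurentBaseChange L hx⟩ :=
  Subtype.ext (coeffMap_coeffEmb' K L x)

/-! ### the coefficientwise Galois action of `L ≃ₐ[K] L` -/

/-- `L ≃ₐ[K] L` acts on `F_L` coefficientwise (through the prelude `arithmeticGalois`). -/
def galAct : (L ≃ₐ[K] L) →* SemilinearAut L ↥(laurentBaseChange L F₀) :=
  (arithmeticGalois (L := L) F₀).comp
    { toFun := fun σ => σ.restrictScalars ℚ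
      map_one' := rfl
      map_mul' := fun _ _ => rfl }

theorem coe_galAct_smul (σ : L ≃ₐ[K] L) (g : ↥(laurentBaseChange L F₀)) :
    ((galAct K L F₀ σ • g : ↥(laurentBaseChange L F₀)) : LaurentSeries L)
      = coeffMap (σ : L →+* L) (g : LaurentSeries L) := rfl

theorem galAct_smul_bcHom (σ : L ≃ₐ[K] L) (f : ↥(laurentBaseChange K F₀)) :
    galAct K L F₀ σ • bcHom K L F₀ f = bcHom K L F₀ f := by
  apply Subtype.ext
  rw [coe_galAct_smul, coe_bcHom, coeffMap_coeffMap]
  exact coeffMap_congr (RingHom.ext fun c => σ.commutes c) _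

theorem baseAut_galAct (σ : L ≃ₐ[K] L) (a : L) :
    SemilinearAut.baseAut (galAct K L F₀ σ) a = σ a := rfl

end Fermat.Agent.GJ.Desc
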