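/-
GATE-J / J2-DESC (helper84), brick D0: linear disjointness of `F_K` and `L` inside `F_L`
(coefficientwise argument in `L((q))`), and generation of `F_L` by `L` and the image of `F_K`.
-/
import Fermat.Agent.GJ.Desc.Defs

set_option autoImplicit false
set_option linter.unusedSectionVars false
set_option linter.unusedVariables false

noncomputable section

open HahnSeries IntermediateField AlgebraicCurve ModularCurve

namespace Fermat.Agent.GJ.Desc

variable (K L : Type*) [Field K] [Field L] [Algebra ℚ K] [Algebra ℚ L] [Algebra K L]
  [IsScalarTower ℚ K L]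
variable (F₀ : IntermediateField ℚ (LaurentSeries ℚ))

theorem coeff_algebraMap_mul (c : L) (y : LaurentSeries L) (k : ℤ) :
    (algebraMap L (LaurentSeries L) c * y).coeff k = c * y.coeff k := by
  rw [algebraMap_laurentSeries_eq_single, HahnSeries.single_zero_mul_eq_smul]
  simp

/-- **Linear disjointness, form 1**: a `K`-linearly independent family of constants of `L` stays
linearly independent over (the image of) `F_K`. -/
theorem eq_zero_of_sum_mul_bcHom {ι : Type*} (s : Finset ι) (lam : ι → L)
    (hlam : LinearIndependent K lam) (f : ι → ↥(laurentBaseChange K F₀))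
    (h : ∑ i ∈ s, algebraMap L ↥(laurentBaseChange L F₀) (lam i) * bcHom K L F₀ (f i) = 0) :
    ∀ i ∈ s, f i = 0 := by
  have hcoeff : ∀ k : ℤ, ∑ i ∈ s, ((f i : LaurentSeries K).coeff k) • lam i = 0 := by
    intro k
    have h1 := congrArg (fun z : ↥(laurentBaseChange L F₀) => (z : LaurentSeries L).coeff k) h
    simp only [AddSubmonoidClass.coe_finsetSum, MulMemClass.coe_mul, coe_bcHom,
      ZeroMemClass.coe_zero, HahnSeries.coeff_zero] at h1
    rw [← h1]
    rw [show (∑ i ∈ s, (algebraMap L ↥(laurentBaseChange L F₀) (lam i) : LaurentSeries L)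
        * coeffMap (algebraMap K L) (f i : LaurentSeries K)).coeff k
        = ∑ i ∈ s, ((algebraMap L ↥(laurentBaseChange L F₀) (lam i) : LaurentSeries L)
        * coeffMap (algebraMap K L) (f i : LaurentSeries K)).coeff k from
      map_sum (HahnSeries.coeff.addMonoidHom k) _ s]
    refine Finset.sum_congr rfl fun i _ => ?_
    have h2 : ((algebraMap L ↥(laurentBaseChange L F₀) (lam i) : ↥(laurentBaseChange L F₀))
        : LaurentSeries L) = algebraMap L (LaurentSeries L) (lam i) := rfl
    rw [h2, coeff_algebraMap_mul, coeffMap_coeff, Algebra.smul_def, mul_comm]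
  intro i hi
  apply Subtype.ext
  ext k
  have := (linearIndependent_iff'.mp hlam) s (fun i => (f i : LaurentSeries K).coeff k)
    (hcoeff k) i hi
  simpa using this

end Fermat.Agent.GJ.Desc
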