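/-
GATE-J / J2-DESC (helper84), brick LD: coefficientwise retractions `L((q)) → K((q))` along
`K`-linear functionals `L → K`, and their consequences for `F_K ⊆ F_L`:
generation of `F_L`, the fixed-coefficient descent (LD-c), injectivity on Kummer classes (LD-d).
-/
import Fermat.Agent.GJ.Desc.LinDisj
import Fermat.Agent.GJ.Desc.AutOrbit

set_option autoImplicit false
set_option linter.unusedSectionVars false
set_option linter.unusedVariables false

noncomputable section

open HahnSeries IntermediateField AlgebraicCurve ModularCurve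

namespace Fermat.Agent.GJ.Desc

section Retr

variable (K L : Type*) [Field K] [Field L] [Algebra K L]

/-- coefficientwise application of a `K`-linear functional `L → K` -/
def retr (φ : L →ₗ[K] K) : LaurentSeries L →+ LaurentSeries K where
  toFun g := g.map φ
  map_zero' := by
    ext n
    simp
  map_add' x y := by
    ext n
    simp

@[simp]
theorem retr_coeff (φ : L →ₗ[K] K) (g : LaurentSeries L) (n : ℤ) :
    (retr K L φ g).coeff n = φ (g.coeff n) := rfl

theorem support_retr_subset (φ : L →ₗ[K] K) (g : LaurentSeries L) :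
    (retr K L φ g).support ⊆ g.support := by
  intro n hn
  rw [HahnSeries.mem_support] at hn ⊢
  intro h0
  apply hn
  rw [retr_coeff, h0, map_zero]

theorem support_coeffMap_subset (h : LaurentSeries K) :
    (coeffMap (algebraMap K L) h).support ⊆ h.support := by
  intro n hn
  rw [HahnSeries.mem_support] at hn ⊢
  intro h0
  apply hn
  rw [coeffMap_coeff, h0, map_zero]

theorem retr_coeffMap_mul (φ : L →ₗ[K] K) (h : LaurentSeries K) (g : LaurentSeries L) :
    retr K L φ (coeffMap (algebraMap K L) h * g) = h * retr K L φ g := by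
  ext a
  rw [retr_coeff,
    HahnSeries.coeff_mul_left' (x := coeffMap (algebraMap K L) h) (y := g) (a := a)
      h.isPWO_support (support_coeffMap_subset K L h),
    HahnSeries.coeff_mul_right' (x := h) (y := retr K L φ g) (a := a)
      g.isPWO_support (support_retr_subset K L φ g), map_sum]
  refine Finset.sum_congr rfl fun ij _ => ?_
  rw [coeffMap_coeff, retr_coeff, ← Algebra.smul_def, map_smul, smul_eq_mul]

theorem retr_coeffMap (φ : L →ₗ[K] K) (h : LaurentSeries K) :
    retr K L φ (coeffMap (algebraMap K L) h) = φ 1 • h := by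
  ext a
  rw [retr_coeff, coeffMap_coeff, Algebra.algebraMap_eq_smul_one, map_smul]
  simp [mul_comm]

theorem coeff_algebraMap_mul' (c : L) (y : LaurentSeries L) (k : ℤ) :
    (algebraMap L (LaurentSeries L) c * y).coeff k = c * y.coeff k := by
  rw [algebraMap_laurentSeries_eq_single, HahnSeries.single_zero_mul_eq_smul]
  simp

theorem retr_algebraMap_mul_coeffMap (φ : L →ₗ[K] K) (c : L) (h : LaurentSeries K) :
    retr K L φ (algebraMap L (LaurentSeries L) c * coeffMap (algebraMap K L) h) = φ c • h := by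
  ext a
  rw [retr_coeff, coeff_algebraMap_mul', coeffMap_coeff, mul_comm, ← Algebra.smul_def, map_smul]
  simp [mul_comm]

end Retr

variable (K L : Type*) [Field K] [Field L] [Algebra ℚ K] [Algebra ℚ L] [Algebra K L]
  [IsScalarTower ℚ K L]
variable (F₀ : IntermediateField ℚ (LaurentSeries ℚ))

/-- `F_L` is generated by `L` and the image of `F_K` -/
theorem adjoin_range_bcHom :
    IntermediateField.adjoin L (Set.range (bcHom K L F₀)) = ⊤ := by
  rw [eq_top_iff]
  rintro ⟨g, hg⟩ -
  have hle : laurentBaseChange L F₀ ≤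
      (IntermediateField.adjoin L (Set.range (bcHom K L F₀))).map
        (laurentBaseChange L F₀).val := by
    unfold laurentBaseChange
    rw [IntermediateField.adjoin_le_iff]
    rintro _ ⟨x, hx, rfl⟩
    refine ⟨⟨coeffEmb L x, coeffEmb_mem_laurentBaseChange L hx⟩,
      IntermediateField.subset_adjoin _ _ ⟨⟨coeffEmb K x, coeffEmb_mem_laurentBaseChange K hx⟩,
        bcHom_coeffEmb K L F₀ hx⟩, rfl⟩
  obtain ⟨g', hg', hgg'⟩ := hle hg
  have : g' = ⟨g, hg⟩ := Subtype.ext hgg'
  rwa [this] at hg'

theorem span_range_bcHom_eq_adjoin :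
    Submodule.span L (Set.range (bcHom K L F₀)) =
      Subalgebra.toSubmodule (Algebra.adjoin L (Set.range (bcHom K L F₀))) := by
  rw [Algebra.adjoin_eq_span]
  congr 1
  symm
  have h : Submonoid.closure (Set.range (bcHom K L F₀))
      = MonoidHom.mrange (bcHom K L F₀).toMonoidHom := by
    apply le_antisymm
    · rw [Submonoid.closure_le]
      rintro _ ⟨x, rfl⟩
      exact ⟨x, rfl⟩
    · rintro _ ⟨x, rfl⟩
      exact Submonoid.subset_closure ⟨x, rfl⟩
  rw [h]
  ext y
  simp

/-- every element of `F_L` is a quotient of `L`-linear combinations of elements of `F_K` -/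
theorem exists_span_div (g : ↥(laurentBaseChange L F₀)) :
    ∃ a b : ↥(laurentBaseChange L F₀),
      a ∈ Submodule.span L (Set.range (bcHom K L F₀)) ∧
      b ∈ Submodule.span L (Set.range (bcHom K L F₀)) ∧ b ≠ 0 ∧ g = a / b := by
  have hg : g ∈ IntermediateField.adjoin L (Set.range (bcHom K L F₀)) := by
    rw [adjoin_range_bcHom]; exact IntermediateField.mem_top
  obtain ⟨r, hr, s, hs, rfl⟩ := IntermediateField.mem_adjoin_iff_div.mp hg
  rw [span_range_bcHom_eq_adjoin]
  by_cases hs0 : s = 0
  · exact ⟨0, 1, zero_mem _,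
      show (1 : ↥(laurentBaseChange L F₀)) ∈ Algebra.adjoin L (Set.range (bcHom K L F₀)) from
        one_mem _, one_ne_zero, by simp [hs0]⟩
  · exact ⟨r, s, hr, hs, hs0, rfl⟩

theorem retr_mem (φ : L →ₗ[K] K) (a : ↥(laurentBaseChange L F₀))
    (ha : a ∈ Submodule.span L (Set.range (bcHom K L F₀))) :
    retr K L φ (a : LaurentSeries L) ∈ laurentBaseChange K F₀ := by
  induction ha using Submodule.span_induction generalizing φ with
  | mem x hx =>
    obtain ⟨f, rfl⟩ := hx
    rw [coe_bcHom, retr_coeffMap]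
    have : φ 1 • (f : LaurentSeries K)
        = algebraMap K (LaurentSeries K) (φ 1) * (f : LaurentSeries K) := by
      ext n
      rw [coeff_algebraMap_mul']
      simp
    rw [this]
    exact mul_mem (IntermediateField.algebraMap_mem _ _) f.2
  | zero => simp
  | add x y _ _ hx hy =>
    have : ((x + y : ↥(laurentBaseChange L F₀)) : LaurentSeries L) = x + y := rfl
    rw [this, map_add]
    exact add_mem (hx φ) (hy φ)
  | smul c x _ hx =>
    have h1 : ((c • x : ↥(laurentBaseChange L F₀)) : LaurentSeries L)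
        = algebraMap L (LaurentSeries L) c * (x : LaurentSeries L) := by
      rw [Algebra.smul_def]; rfl
    have h2 : retr K L φ (algebraMap L (LaurentSeries L) c * (x : LaurentSeries L))
        = retr K L (φ.comp (LinearMap.mulLeft K c)) (x : LaurentSeries L) := by
      ext n
      simp [coeff_algebraMap_mul']
    rw [h1, h2]
    exact hx _

/-- **(LD-c)** an element of `F_L` all of whose coefficients lie in `K` comes from `F_K` -/
theorem mem_range_bcHom_of_coeff_mem (g : ↥(laurentBaseChange L F₀))
    (hg : ∀ n : ℤ, (g : LaurentSeries L).coeff n ∈ Set.range (algebraMap K L)) :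
    g ∈ Set.range (bcHom K L F₀) := by
  obtain ⟨g₀, hg₀⟩ := AutOrbit.exists_hahnSeries_map_eq (K := K) (g : LaurentSeries L) hg
  have hg₀' : coeffMap (algebraMap K L) g₀ = (g : LaurentSeries L) := hg₀
  obtain ⟨a, b, ha, hb, hb0, hgab⟩ := exists_span_div K L F₀ g
  have hb0' : (b : LaurentSeries L) ≠ 0 := fun h => hb0 (Subtype.ext h)
  obtain ⟨n, hn⟩ : ∃ n, (b : LaurentSeries L).coeff n ≠ 0 := by
    by_contra hcon
    have hcon' : ∀ n, (b : LaurentSeries L).coeff n = 0 := fun n => by
      by_contra h
      exact hcon ⟨n, h⟩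
    exact hb0' (HahnSeries.ext (funext hcon'))
  obtain ⟨φ, hφ⟩ := Module.Projective.exists_dual_ne_zero K hn
  have hmul : (g : LaurentSeries L) * (b : LaurentSeries L) = (a : LaurentSeries L) := by
    have : g * b = a := by rw [hgab, div_mul_cancel₀ _ hb0]
    exact congrArg Subtype.val this
  have h1 : g₀ * retr K L φ (b : LaurentSeries L) = retr K L φ (a : LaurentSeries L) := by
    rw [← retr_coeffMap_mul, hg₀', hmul]
  have hrb : retr K L φ (b : LaurentSeries L) ≠ 0 := by
    intro h0
    apply hφ
    have := congrArg (fun z : LaurentSeries K => z.coeff n) h0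
    simpa using this
  have hg₀mem : g₀ ∈ laurentBaseChange K F₀ := by
    have : g₀ = retr K L φ (a : LaurentSeries L) / retr K L φ (b : LaurentSeries L) := by
      rw [eq_div_iff hrb, h1]
    rw [this]
    exact div_mem (retr_mem K L F₀ φ a ha) (retr_mem K L F₀ φ b hb)
  exact ⟨⟨g₀, hg₀mem⟩, Subtype.ext hg₀'⟩

/-- an element of `F_L` with finite orbit under `L ≃ₐ[K] L` comes from `F_K` -/
theorem mem_range_bcHom_of_finite_orbit [CharZero K] [IsAlgClosed K] [IsAlgClosed L]
    (g : ↥(laurentBaseChange L F₀))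
    (hg : (Set.range fun σ : L ≃ₐ[K] L => galAct K L F₀ σ • g).Finite) :
    g ∈ Set.range (bcHom K L F₀) := by
  apply mem_range_bcHom_of_coeff_mem
  have hfin : (Set.range fun σ : L ≃ₐ[K] L =>
      (g : LaurentSeries L).map ((σ : L ≃ₐ[K] L) : L →+* L)).Finite := by
    refine (hg.image Subtype.val).subset ?_
    rintro _ ⟨σ, rfl⟩
    exact ⟨galAct K L F₀ σ • g, ⟨σ, rfl⟩, rfl⟩
  obtain ⟨g₀, hg₀⟩ := AutOrbit.exists_hahnSeries_map_eq_of_finite_orbit (g : LaurentSeries L) hfin
  intro n
  refine ⟨g₀.coeff n, ?_⟩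
  rw [← hg₀]
  rfl

/-- **(LD-d)** injectivity of the base change on Kummer classes -/
theorem isPow_of_bcHom_eq_pow [CharZero K] [IsAlgClosed K] [IsAlgClosed L] (p : ℕ) (hp : 0 < p)
    (u₀ : ↥(laurentBaseChange K F₀)) (v : ↥(laurentBaseChange L F₀))
    (h : bcHom K L F₀ u₀ = v ^ p) : ∃ v₀ : ↥(laurentBaseChange K F₀), u₀ = v₀ ^ p := by
  classical
  have hv : v ∈ Set.range (bcHom K L F₀) := by
    apply mem_range_bcHom_of_finite_orbit
    refine (Polynomial.nthRoots p (bcHom K L F₀ u₀)).toFinset.finite_toSet.subset ?_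
    rintro _ ⟨σ, rfl⟩
    simp only [Finset.mem_coe, Multiset.mem_toFinset, Polynomial.mem_nthRoots hp]
    rw [← smul_pow', ← h, galAct_smul_bcHom]
  obtain ⟨v₀, rfl⟩ := hv
  refine ⟨v₀, bcHom_injective K L F₀ ?_⟩
  rw [h, map_pow]

end Fermat.Agent.GJ.Desc
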