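/-
GATE-J / J2-DESC brick UE (helper66): semilinear transport of Riemann–Roch spaces and the
**normalising function** of a `p`-divisible principal divisor.

If `div u = p • D`, `n₀` is minimal with `L(D + n₀ P∞) ≠ 0` and `w` spans `L(D + n₀ P∞)`, then for
every semilinear automorphism `g` fixing `P∞` with `g u = u v ^ p` we get `g w * v = c w` for a
constant `c ≠ 0` (because `g D = D + div v`).
Statements exactly as in `GJ/Desc/Skeleton.lean`.
-/
import Fermat.Prelude.Def_AlgebraicCurve_BaseChangeGalois
import Fermat.Agent.RR.EffRep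

set_option autoImplicit false
set_option linter.unusedVariables false

noncomputable section

open AlgebraicCurve

namespace Fermat.Agent.GJ.Desc

open Fermat.Agent.RRh45 Fermat.Agent.RR.Bound Fermat.Agent.RR.EffRep Fermat.Agent.S24

variable {K F : Type*} [Field K] [Field F] [Algebra K F]

/-- `ord_Q (g • f) = ord_{g⁻¹ Q} f`. -/
theorem ord_smul_eq (g : SemilinearAut K F) (Q : Place K F) (f : F) :
    Q.ord (g • f) = (g⁻¹ • Q).ord f := by
  have h := SemilinearAut.ord_smul g (g⁻¹ • Q) f
  rwa [smul_inv_smul] at h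

/-- semilinear transport of Riemann–Roch spaces -/
theorem smul_mem_riemannRochSpace (g : SemilinearAut K F) {D : Divisor K F} {f : F}
    (hf : f ∈ riemannRochSpace D) : g • f ∈ riemannRochSpace (g • D) := by
  rw [mem_riemannRochSpace_iff] at hf ⊢
  intro Q
  rcases hf (g⁻¹ • Q) with h | h
  · left
    rw [h, smul_zero]
  · right
    rw [SemilinearAut.divisor_smul_apply, ord_smul_eq]
    exact h

section Normaliser

variable [FiniteResidues K F] [HasPrincipalDivisors K F]

/-- The divisor `(div u) / p`. -/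
def divQuot (u : F) (p : ℕ) : Divisor K F :=
  Finsupp.mapRange (fun n : ℤ => n / (p : ℤ)) (by simp) (divOf K u)

omit [FiniteResidues K F] in
theorem divQuot_apply {u : F} (hu : u ≠ 0) (p : ℕ) (Q : Place K F) :
    divQuot (K := K) u p Q = Q.ord u / (p : ℤ) := by
  unfold divQuot
  rw [Finsupp.mapRange_apply, divOf_apply hu]

/-- **normalising function of a `p`-divisible principal divisor**: if `div u = p • D`, `n` minimal
with `L(D + n P∞) ≠ 0`, then `L(D + n P∞) = K w`; for every semilinear automorphism `g` fixing `P∞`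
with `g u = u v^p` one gets `g w * v = c w` (because `g D = D + div v`).
(The divisibility hypothesis `hdiv` is kept for the interface; the proof works with `⌊div u / p⌋`.) -/
theorem exists_normaliser
    (Pinf : Place K F) (hdeg : Pinf.deg = 1) (p : ℕ) (hp : 0 < p) (u : F) (hu : u ≠ 0)
    (hdiv : ∀ Q : Place K F, (p : ℤ) ∣ Q.ord u) :
    ∃ w : F, w ≠ 0 ∧ ∀ g : SemilinearAut K F, g • Pinf = Pinf → ∀ v : F, v ≠ 0 →
      g • u = u * v ^ p → ∃ c : K, c ≠ 0 ∧ (g • w) * v = algebraMap K F c * w := by
  set D : Divisor K F := divQuot (K := K) u p with hD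
  set n₀ : ℤ := minTwist D Pinf with hn₀
  set w : F := minSection D Pinf with hw
  have hwmem : w ∈ riemannRochSpace (tw D Pinf n₀) := minSection_mem D Pinf
  have hw0 : w ≠ 0 := minSection_ne_zero D Pinf
  have hp0 : (p : ℤ) ≠ 0 := by exact_mod_cast hp.ne'
  refine ⟨w, hw0, fun g hgP v hv hgu => ?_⟩
  -- `g • D = D + div v`, pointwise
  have hgD : ∀ Q : Place K F, (g • D) Q = D Q + Q.ord v := by
    intro Q
    rw [SemilinearAut.divisor_smul_apply, hD, divQuot_apply hu, divQuot_apply hu,
      ← ord_smul_eq, hgu, Q.ord_mul hu (pow_ne_zero p hv)]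
    have hpow : Q.ord (v ^ p) = (p : ℤ) * Q.ord v := by
      have := Q.ord_zpow v (p : ℤ)
      simpa using this
    rw [hpow, Int.add_mul_ediv_left _ _ hp0]
  -- `g • w ∈ L(g • tw D P n₀)`
  have h1 : g • w ∈ riemannRochSpace (g • tw D Pinf n₀) := smul_mem_riemannRochSpace g hwmem
  have hgw0 : g • w ≠ 0 := by
    intro h0
    apply hw0
    have := congrArg (fun x => g⁻¹ • x) h0
    simpa using this
  -- `(g • w) * v ∈ L(tw D P n₀)`
  have h2 : (g • w) * v ∈ riemannRochSpace (tw D Pinf n₀) := by
    rw [mem_riemannRochSpace_iff] at h1 ⊢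
    intro Q
    right
    have hQ := (h1 Q).resolve_left hgw0
    have htw : (g • tw D Pinf n₀) Q = tw D Pinf n₀ Q + Q.ord v := by
      unfold tw
      rw [smul_add, SemilinearAut.smul_single, hgP, Finsupp.add_apply, Finsupp.add_apply, hgD]
      ring
    rw [htw] at hQ
    rw [Q.ord_mul hgw0 hv]
    linarith
  -- one-dimensionality
  have hone := finrank_minTwist D Pinf hdeg
  have hnz : (⟨w, hwmem⟩ : riemannRochSpace (tw D Pinf n₀)) ≠ 0 := by
    intro h0
    exact hw0 (congrArg Subtype.val h0)
  obtain ⟨c, hc⟩ := (finrank_eq_one_iff_of_nonzero' _ hnz).mp hone ⟨(g • w) * v, h2⟩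
  have hc' : c • w = (g • w) * v := congrArg Subtype.val hc
  refine ⟨c, ?_, ?_⟩
  · rintro rfl
    rw [zero_smul] at hc'
    exact mul_ne_zero hgw0 hv hc'.symm
  · rw [← hc', Algebra.smul_def]

end Normaliser

end Fermat.Agent.GJ.Desc
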