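/-
GATE-J / J2-DESC (helper84), MAIN: descent of Kummer classes from `F_L` to `F_K`
(`K ⊆ L` algebraically closed of characteristic zero), hypothesis form `descent_core`
(inputs: a Galois-fixed place of degree one of `F_L`, Riemann–Roch instances for `F_L`,
places of `F_K` extend to `F_L` without ramification, finiteness of the Kummer group of `F_L`).
-/
import Fermat.Agent.GJ.Desc.Retract
import Fermat.Agent.GJ.Desc.UniqueEff

set_option autoImplicit false
set_option linter.unusedSectionVars false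
set_option linter.unusedVariables false

noncomputable section

open HahnSeries IntermediateField AlgebraicCurve ModularCurve

namespace Fermat.Agent.GJ.Desc

open Fermat.Agent.RRh45

variable (K L : Type*) [Field K] [Field L] [Algebra ℚ K] [Algebra ℚ L] [Algebra K L]
  [IsScalarTower ℚ K L]
variable (F₀ : IntermediateField ℚ (LaurentSeries ℚ))

theorem galAct_smul_algebraMap (σ : L ≃ₐ[K] L) (a : L) :
    galAct K L F₀ σ • algebraMap L ↥(laurentBaseChange L F₀) a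
      = algebraMap L ↥(laurentBaseChange L F₀) (σ a) := by
  rw [SemilinearAut.smul_algebraMap, baseAut_galAct]

theorem coeff_galAct_smul (σ : L ≃ₐ[K] L) (g : ↥(laurentBaseChange L F₀)) (n : ℤ) :
    ((galAct K L F₀ σ • g : ↥(laurentBaseChange L F₀)) : LaurentSeries L).coeff n
      = σ ((g : LaurentSeries L).coeff n) := by
  rw [coe_galAct_smul, coeffMap_coeff]
  rfl

theorem coeff_algebraMap_mul_coe (a : L) (g : ↥(laurentBaseChange L F₀)) (n : ℤ) :
    ((algebraMap L ↥(laurentBaseChange L F₀) a * g : ↥(laurentBaseChange L F₀)) :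
      LaurentSeries L).coeff n = a * (g : LaurentSeries L).coeff n := by
  have : ((algebraMap L ↥(laurentBaseChange L F₀) a * g : ↥(laurentBaseChange L F₀)) :
      LaurentSeries L) = algebraMap L (LaurentSeries L) a * (g : LaurentSeries L) := rfl
  rw [this, coeff_algebraMap_mul']

/-- **Normalised representative**: there is `w ≠ 0` and a constant `a ≠ 0` such that
`u'' := a⁻¹ u w^p` is fixed by every `ρ ∈ Aut(L/K)` for which `ρ u / u` is a `p`-th power. -/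
theorem exists_fixed_representative
    [FiniteResidues L ↥(laurentBaseChange L F₀)] [HasPrincipalDivisors L ↥(laurentBaseChange L F₀)]
    (Pinf : Place L ↥(laurentBaseChange L F₀)) (hdeg : Pinf.deg = 1)
    (hfix : ∀ σ : L ≃ₐ[K] L, galAct K L F₀ σ • Pinf = Pinf)
    (p : ℕ) (hp : 0 < p) (u : ↥(laurentBaseChange L F₀)) (hu : u ≠ 0)
    (hdiv : ∀ Q : Place L ↥(laurentBaseChange L F₀), (p : ℤ) ∣ Q.ord u) :
    ∃ (w : ↥(laurentBaseChange L F₀)) (a : L), w ≠ 0 ∧ a ≠ 0 ∧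
      ∀ ρ : L ≃ₐ[K] L, ∀ v : ↥(laurentBaseChange L F₀), v ≠ 0 →
        galAct K L F₀ ρ • u = u * v ^ p →
        galAct K L F₀ ρ • (algebraMap L ↥(laurentBaseChange L F₀) a⁻¹ * (u * w ^ p))
          = algebraMap L ↥(laurentBaseChange L F₀) a⁻¹ * (u * w ^ p) := by
  obtain ⟨w, hw0, hw⟩ := exists_normaliser Pinf hdeg p hp u hu hdiv
  have hu' : u * w ^ p ≠ 0 := mul_ne_zero hu (pow_ne_zero _ hw0)
  obtain ⟨n₀, hn₀⟩ : ∃ n, ((u * w ^ p : ↥(laurentBaseChange L F₀)) : LaurentSeries L).coeff n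
      ≠ 0 := by
    by_contra hcon
    have hcon' : ∀ n, ((u * w ^ p : ↥(laurentBaseChange L F₀)) : LaurentSeries L).coeff n = 0 :=
      fun n => by
        by_contra h
        exact hcon ⟨n, h⟩
    exact hu' (Subtype.ext (HahnSeries.ext (funext hcon')))
  set a := ((u * w ^ p : ↥(laurentBaseChange L F₀)) : LaurentSeries L).coeff n₀ with ha
  refine ⟨w, a, hw0, hn₀, fun ρ v hv hρ => ?_⟩
  obtain ⟨c, hc0, hc⟩ := hw (galAct K L F₀ ρ) (hfix ρ) v hv hρ
  -- `ρ (u w^p) = c^p u w^p`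
  have h1 : galAct K L F₀ ρ • (u * w ^ p)
      = algebraMap L ↥(laurentBaseChange L F₀) (c ^ p) * (u * w ^ p) := by
    have hρw : galAct K L F₀ ρ • w = algebraMap L ↥(laurentBaseChange L F₀) c * w / v := by
      rw [eq_div_iff hv, hc]
    rw [smul_mul', smul_pow', hρ, hρw, div_pow, mul_pow, map_pow]
    field_simp
  -- compare the coefficient `n₀`
  have h2 : ρ a = c ^ p * a := by
    have := congrArg (fun z : ↥(laurentBaseChange L F₀) => (z : LaurentSeries L).coeff n₀) h1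
    simp only [coeff_galAct_smul, coeff_algebraMap_mul_coe] at this
    exact this
  rw [smul_mul', galAct_smul_algebraMap, h1, map_inv₀, h2, ← mul_assoc, ← map_mul]
  congr 2
  have hcp : c ^ p ≠ 0 := pow_ne_zero _ hc0
  field_simp

theorem galAct_mul_smul (σ τ : L ≃ₐ[K] L) (g : ↥(laurentBaseChange L F₀)) :
    galAct K L F₀ (σ * τ) • g = galAct K L F₀ σ • galAct K L F₀ τ • g := by
  rw [map_mul, mul_smul]

theorem galAct_inv_smul_smul (τ : L ≃ₐ[K] L) (g : ↥(laurentBaseChange L F₀)) :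
    galAct K L F₀ τ⁻¹ • galAct K L F₀ τ • g = g := by
  rw [← galAct_mul_smul, inv_mul_cancel, map_one, one_smul]

theorem galAct_smul_inv_smul (τ : L ≃ₐ[K] L) (g : ↥(laurentBaseChange L F₀)) :
    galAct K L F₀ τ • galAct K L F₀ τ⁻¹ • g = g := by
  rw [← galAct_mul_smul, mul_inv_cancel, map_one, one_smul]

theorem galAct_smul_ne_zero (τ : L ≃ₐ[K] L) {g : ↥(laurentBaseChange L F₀)} (hg : g ≠ 0) :
    galAct K L F₀ τ • g ≠ 0 :=
  (smul_ne_zero_iff_ne _).mpr hg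

/-- if `σ u` and `τ u` lie in the same class `s · (F_Lˣ)^p`, the conjugates of the normalised
representative agree -/
theorem conj_eq_of_same_class (p : ℕ) (u u'' : ↥(laurentBaseChange L F₀)) (hu : u ≠ 0)
    (hfixed : ∀ ρ : L ≃ₐ[K] L, ∀ v : ↥(laurentBaseChange L F₀), v ≠ 0 →
        galAct K L F₀ ρ • u = u * v ^ p → galAct K L F₀ ρ • u'' = u'')
    (σ τ : L ≃ₐ[K] L) (s vσ vτ : ↥(laurentBaseChange L F₀)) (hvσ : vσ ≠ 0) (hvτ : vτ ≠ 0)
    (hσ : galAct K L F₀ σ • u = s * vσ ^ p) (hτ : galAct K L F₀ τ • u = s * vτ ^ p) :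
    galAct K L F₀ σ • u'' = galAct K L F₀ τ • u'' := by
  have key : s * vτ ^ p * (vσ / vτ) ^ p = s * vσ ^ p := by
    rw [mul_assoc, ← mul_pow, mul_comm vτ, div_mul_cancel₀ _ hvτ]
  have hu_eq : u = galAct K L F₀ τ⁻¹ • (s * vτ ^ p) := by
    rw [← hτ, galAct_inv_smul_smul]
  have hρ : galAct K L F₀ (τ⁻¹ * σ) • u
      = u * (galAct K L F₀ τ⁻¹ • (vσ / vτ)) ^ p := by
    rw [galAct_mul_smul, hσ]
    conv_rhs => rw [hu_eq]
    rw [← smul_pow', ← smul_mul', key]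
  have hv' : galAct K L F₀ τ⁻¹ • (vσ / vτ) ≠ 0 :=
    galAct_smul_ne_zero K L F₀ _ (div_ne_zero hvσ hvτ)
  have h1 := hfixed (τ⁻¹ * σ) _ hv' hρ
  rw [galAct_mul_smul] at h1
  have h2 : galAct K L F₀ τ • (galAct K L F₀ τ⁻¹ • galAct K L F₀ σ • u'')
      = galAct K L F₀ τ • u'' := by rw [h1]
  rwa [galAct_smul_inv_smul] at h2

/-- a map on `Aut(L/K)` that factors through a map into a finite set has finite range -/
theorem finite_range_of_factors {G X : Type*} (S : Finset X) {Y : Type*} (r : G → Y) (c : G → X)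
    (hc : ∀ σ, c σ ∈ S) (h : ∀ σ τ, c σ = c τ → r σ = r τ) : (Set.range r).Finite := by
  classical
  rcases isEmpty_or_nonempty G with hG | ⟨⟨σ₀⟩⟩
  · exact Set.toFinite _
  let r' : ↥S → Y := fun t => if h : ∃ σ : G, c σ = t.1 then r h.choose else r σ₀
  refine (Set.finite_range r').subset ?_
  rintro _ ⟨σ, rfl⟩
  refine ⟨⟨c σ, hc σ⟩, ?_⟩
  have hex : ∃ σ' : G, c σ' = c σ := ⟨σ, rfl⟩
  show (if h : ∃ σ' : G, c σ' = c σ then r h.choose else r σ₀) = _
  rw [dif_pos hex]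
  exact h _ _ hex.choose_spec

/-- the final bookkeeping: `p ∣ div u` and `u = bcHom u₀ · v^p` give `p ∣ div u₀` -/
theorem dvd_ord_of_eq_mul_pow
    (hover : ∀ P : Place K ↥(laurentBaseChange K F₀), ∃ Q : Place L ↥(laurentBaseChange L F₀),
      ∀ f : ↥(laurentBaseChange K F₀), Q.ord (bcHom K L F₀ f) = P.ord f)
    (p : ℕ) (u v : ↥(laurentBaseChange L F₀)) (u₀ : ↥(laurentBaseChange K F₀))
    (hu₀ : u₀ ≠ 0) (hv : v ≠ 0)
    (hdiv : ∀ Q : Place L ↥(laurentBaseChange L F₀), (p : ℤ) ∣ Q.ord u)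
    (hueq : u = bcHom K L F₀ u₀ * v ^ p) (P : Place K ↥(laurentBaseChange K F₀)) :
    (p : ℤ) ∣ P.ord u₀ := by
  obtain ⟨Q, hQ⟩ := hover P
  rw [← hQ u₀]
  have hb0 : bcHom K L F₀ u₀ ≠ 0 := (map_ne_zero _).mpr hu₀
  have h3 : Q.ord u = Q.ord (bcHom K L F₀ u₀) + (p : ℤ) * Q.ord v := by
    conv_lhs => rw [hueq]
    rw [Q.ord_mul hb0 (pow_ne_zero _ hv), ← zpow_natCast, Q.ord_zpow]
  have h4 := hdiv Q
  rw [h3] at h4
  exact (Int.dvd_add_left (dvd_mul_right _ _)).mp h4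

/-- **Descent of Kummer classes, hypothesis form.** -/
theorem descent_core [CharZero K] [IsAlgClosed K] [IsAlgClosed L]
    [FiniteResidues L ↥(laurentBaseChange L F₀)] [HasPrincipalDivisors L ↥(laurentBaseChange L F₀)]
    (Pinf : Place L ↥(laurentBaseChange L F₀)) (hdeg : Pinf.deg = 1)
    (hfix : ∀ σ : L ≃ₐ[K] L, galAct K L F₀ σ • Pinf = Pinf)
    (hover : ∀ P : Place K ↥(laurentBaseChange K F₀), ∃ Q : Place L ↥(laurentBaseChange L F₀),
      ∀ f : ↥(laurentBaseChange K F₀), Q.ord (bcHom K L F₀ f) = P.ord f)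
    (p : ℕ) (hp : 0 < p)
    (hfin : ∃ S : Finset ↥(laurentBaseChange L F₀), ∀ g : ↥(laurentBaseChange L F₀), g ≠ 0 →
      (∀ Q : Place L ↥(laurentBaseChange L F₀), (p : ℤ) ∣ Q.ord g) →
      ∃ s ∈ S, ∃ v : ↥(laurentBaseChange L F₀), v ≠ 0 ∧ g = s * v ^ p)
    (u : ↥(laurentBaseChange L F₀)) (hu : u ≠ 0)
    (hdiv : ∀ Q : Place L ↥(laurentBaseChange L F₀), (p : ℤ) ∣ Q.ord u) :
    ∃ u₀ : ↥(laurentBaseChange K F₀), u₀ ≠ 0 ∧
      (∀ P : Place K ↥(laurentBaseChange K F₀), (p : ℤ) ∣ P.ord u₀) ∧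
      ∃ v : ↥(laurentBaseChange L F₀), v ≠ 0 ∧ u = bcHom K L F₀ u₀ * v ^ p := by
  obtain ⟨w, a, hw0, ha0, hfixed⟩ :=
    exists_fixed_representative K L F₀ Pinf hdeg hfix p hp u hu hdiv
  obtain ⟨S, hS⟩ := hfin
  have hu''0 : algebraMap L ↥(laurentBaseChange L F₀) a⁻¹ * (u * w ^ p) ≠ 0 :=
    mul_ne_zero ((map_ne_zero _).mpr (inv_ne_zero ha0)) (mul_ne_zero hu (pow_ne_zero _ hw0))
  -- every conjugate of `u` is `s v^p` with `s ∈ S`
  have hconj : ∀ σ : L ≃ₐ[K] L, ∃ s ∈ S, ∃ v : ↥(laurentBaseChange L F₀), v ≠ 0 ∧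
      galAct K L F₀ σ • u = s * v ^ p := by
    intro σ
    apply hS
    · exact galAct_smul_ne_zero K L F₀ σ hu
    · intro Q
      rw [ord_smul_eq]
      exact hdiv _
  choose s hsS v hv0 hsv using hconj
  -- finite orbit
  have hfinorb : (Set.range fun σ : L ≃ₐ[K] L =>
      galAct K L F₀ σ • (algebraMap L ↥(laurentBaseChange L F₀) a⁻¹ * (u * w ^ p))).Finite := by
    refine finite_range_of_factors S _ s hsS fun σ τ hst => ?_
    exact conj_eq_of_same_class K L F₀ p u _ hu hfixed σ τ (s σ) (v σ) (v τ) (hv0 σ) (hv0 τ)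
      (hsv σ) (hst ▸ hsv τ)
  obtain ⟨u₀, hu₀⟩ := mem_range_bcHom_of_finite_orbit K L F₀ _ hfinorb
  have hu₀0 : u₀ ≠ 0 := by
    intro h0
    rw [h0, map_zero] at hu₀
    exact hu''0 hu₀.symm
  obtain ⟨d, hd⟩ := IsAlgClosed.exists_pow_nat_eq a hp
  have hd0 : d ≠ 0 := by
    intro h0
    rw [h0, zero_pow hp.ne'] at hd
    exact ha0 hd.symm
  have hv : algebraMap L ↥(laurentBaseChange L F₀) d / w ≠ 0 :=
    div_ne_zero ((map_ne_zero _).mpr hd0) hw0
  have hueq : u = bcHom K L F₀ u₀ * (algebraMap L ↥(laurentBaseChange L F₀) d / w) ^ p := by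
    have h1 : algebraMap L ↥(laurentBaseChange L F₀) a ≠ 0 := (map_ne_zero _).mpr ha0
    have h2 : w ^ p ≠ 0 := pow_ne_zero _ hw0
    rw [hu₀, div_pow, ← map_pow, hd, map_inv₀]
    have h3 : (algebraMap L ↥(laurentBaseChange L F₀) a)⁻¹ * (u * w ^ p)
        * (algebraMap L ↥(laurentBaseChange L F₀) a / w ^ p)
        = ((algebraMap L ↥(laurentBaseChange L F₀) a)⁻¹ * algebraMap L ↥(laurentBaseChange L F₀) a)
          * u * (w ^ p / w ^ p) := by ring
    rw [h3, inv_mul_cancel₀ h1, div_self h2, one_mul, mul_one]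
  exact ⟨u₀, hu₀0, dvd_ord_of_eq_mul_pow K L F₀ hover p u _ u₀ hu₀0 hv hdiv hueq, _, hv, hueq⟩

end Fermat.Agent.GJ.Desc
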