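/-
GATE-J / J2-DESC brick QP (helper80): the `q`-adic place of `F_L = laurentBaseChange L F₀` and its
invariance under the coefficientwise action of `L ≃ₐ[K] L`.

Statements `qVal`, `qVal_apply`, `qPlace`, `galAct_smul_qPlace` exactly as in `GJ/Desc/Skeleton.lean`;
extras: order / leading coefficient of `coeffMap` (sub-namespace `QP`), `qPlace_ord`, invariance under
every `arithmeticGalois` element, order / leading coefficient under `galAct`.
-/
import Fermat.Agent.GJ.Desc.Defs
import Fermat.Agent.S24.IntVal

set_option autoImplicit false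
set_option linter.unusedSectionVars false
set_option linter.unusedVariables false

noncomputable section

open HahnSeries IntermediateField AlgebraicCurve ModularCurve

namespace Fermat.Agent.GJ.Desc

open Fermat.Agent.S24

/-! ### order and leading coefficient under an injective coefficient map -/

namespace QP

section CoeffMapOrder

variable {R S : Type*} [CommRing R] [CommRing S]

theorem coeffMap_eq_zero_iff {f : R →+* S} (hf : Function.Injective f) (x : LaurentSeries R) :
    coeffMap f x = 0 ↔ x = 0 := by
  constructor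
  · intro h
    exact coeffMap_injective hf (by rw [h, map_zero])
  · rintro rfl
    exact map_zero _

theorem coeffMap_ne_zero {f : R →+* S} (hf : Function.Injective f) {x : LaurentSeries R}
    (hx : x ≠ 0) : coeffMap f x ≠ 0 := fun h => hx ((coeffMap_eq_zero_iff hf x).mp h)

theorem coeff_coeffMap_ne_zero_iff {f : R →+* S} (hf : Function.Injective f)
    (x : LaurentSeries R) (k : ℤ) : (coeffMap f x).coeff k ≠ 0 ↔ x.coeff k ≠ 0 := by
  rw [coeffMap_coeff]
  exact (map_ne_zero_iff f hf)

/-- an injective coefficient map preserves the order -/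
theorem order_coeffMap {f : R →+* S} (hf : Function.Injective f) (x : LaurentSeries R) :
    (coeffMap f x).order = x.order := by
  rcases eq_or_ne x 0 with rfl | hx
  · simp
  have hx' := coeffMap_ne_zero hf hx
  apply le_antisymm
  · apply HahnSeries.order_le_of_coeff_ne_zero
    rw [coeff_coeffMap_ne_zero_iff hf]
    exact fun h => hx (HahnSeries.coeff_order_eq_zero.mp h)
  · apply HahnSeries.order_le_of_coeff_ne_zero
    rw [← coeff_coeffMap_ne_zero_iff hf]
    exact fun h => hx' (HahnSeries.coeff_order_eq_zero.mp h)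

/-- an injective coefficient map commutes with the leading coefficient -/
theorem leadingCoeff_coeffMap {f : R →+* S} (hf : Function.Injective f) (x : LaurentSeries R) :
    (coeffMap f x).leadingCoeff = f x.leadingCoeff := by
  rw [HahnSeries.leadingCoeff_eq, HahnSeries.leadingCoeff_eq, order_coeffMap hf, coeffMap_coeff]

end CoeffMapOrder

end QP

open QP

variable (K L : Type*) [Field K] [Field L] [Algebra ℚ K] [Algebra ℚ L] [Algebra K L]
  [IsScalarTower ℚ K L]
variable (F₀ : IntermediateField ℚ (LaurentSeries ℚ))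

/-! ### the `q`-adic valuation and place -/

theorem QP.coe_ne_zero_of_ne_zero {g : ↥(laurentBaseChange L F₀)} (hg : g ≠ 0) :
    (g : LaurentSeries L) ≠ 0 := fun h => hg (Subtype.ext h)

/-- the `q`-adic valuation data on `F_L` -/
def qVal : IntVal L ↥(laurentBaseChange L F₀) where
  toFun g := (g : LaurentSeries L).order
  map_mul' {f g} hf hg := by
    show ((f * g : ↥(laurentBaseChange L F₀)) : LaurentSeries L).order = _
    rw [MulMemClass.coe_mul]
    exact HahnSeries.order_mul (coe_ne_zero_of_ne_zero L F₀ hf) (coe_ne_zero_of_ne_zero L F₀ hg)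
  map_add' {f g} hf hg hfg := by
    show _ ≤ ((f + g : ↥(laurentBaseChange L F₀)) : LaurentSeries L).order
    rw [AddMemClass.coe_add]
    exact HahnSeries.min_order_le_order_add (by
      rw [← AddMemClass.coe_add]
      exact coe_ne_zero_of_ne_zero L F₀ hfg)
  map_algebraMap' c hc := by
    show ((algebraMap L ↥(laurentBaseChange L F₀) c : ↥(laurentBaseChange L F₀)) :
      LaurentSeries L).order = 0
    have h : ((algebraMap L ↥(laurentBaseChange L F₀) c : ↥(laurentBaseChange L F₀)) :
      LaurentSeries L) = algebraMap L (LaurentSeries L) c := rfl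
    rw [h, algebraMap_laurentSeries_eq_single, HahnSeries.order_single hc]

theorem qVal_apply (g : ↥(laurentBaseChange L F₀)) :
    qVal L F₀ g = (g : LaurentSeries L).order := rfl

theorem QP.order_coeffEmb (f : LaurentSeries ℚ) : (coeffEmb L f).order = f.order :=
  order_coeffMap (algebraMap ℚ L).injective f

theorem qVal_isNontrivial (hq : ∃ f ∈ F₀, f.order ≠ 0) : (qVal L F₀).IsNontrivial := by
  obtain ⟨f, hf, hord⟩ := hq
  have hf0 : f ≠ 0 := by
    rintro rfl
    exact hord HahnSeries.order_zero
  refine ⟨⟨coeffEmb L f, coeffEmb_mem_laurentBaseChange L hf⟩, ?_, ?_⟩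
  · intro h
    have h' : coeffEmb L f = 0 := congrArg Subtype.val h
    exact coeffMap_ne_zero (algebraMap ℚ L).injective hf0 h'
  · rw [qVal_apply]
    show (coeffEmb L f).order ≠ 0
    rwa [order_coeffEmb]

/-- the place `q = 0` of `F_L`, when some element of `F₀` has nonzero order -/
def qPlace (hq : ∃ f ∈ F₀, f.order ≠ 0) : Place L ↥(laurentBaseChange L F₀) :=
  IntVal.placeOf (qVal_isNontrivial L F₀ hq)

theorem qPlace_toValuationSubring (hq : ∃ f ∈ F₀, f.order ≠ 0) :
    (qPlace L F₀ hq).toValuationSubring = (qVal L F₀).valuationSubring := rfl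

theorem mem_qPlace_iff (hq : ∃ f ∈ F₀, f.order ≠ 0) (g : ↥(laurentBaseChange L F₀)) :
    g ∈ (qPlace L F₀ hq).toValuationSubring ↔ g = 0 ∨ 0 ≤ (g : LaurentSeries L).order :=
  Iff.rfl

/-- `order = mult * ord` for the `q`-place -/
theorem order_eq_mult_mul_ord (hq : ∃ f ∈ F₀, f.order ≠ 0) {g : ↥(laurentBaseChange L F₀)}
    (hg : g ≠ 0) :
    (g : LaurentSeries L).order
      = IntVal.mult (qVal_isNontrivial L F₀ hq) * (qPlace L F₀ hq).ord g :=
  IntVal.eq_mult_mul_ord (qVal_isNontrivial L F₀ hq) hg

/-- if `F₀` contains an element of order `-1` (e.g. `j`), the multiplicity of the `q`-place is `1` -/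
theorem mult_qVal_eq_one (hq : ∃ f ∈ F₀, f.order ≠ 0) (hq1 : ∃ f ∈ F₀, f.order = -1) :
    IntVal.mult (qVal_isNontrivial L F₀ hq) = 1 := by
  obtain ⟨f, hf, hord⟩ := hq1
  have hf0 : f ≠ 0 := by
    rintro rfl
    rw [HahnSeries.order_zero] at hord
    omega
  set g : ↥(laurentBaseChange L F₀) := ⟨coeffEmb L f, coeffEmb_mem_laurentBaseChange L hf⟩
  have hg : g ≠ 0 := by
    intro h
    have h' : coeffEmb L f = 0 := congrArg Subtype.val h
    exact coeffMap_ne_zero (algebraMap ℚ L).injective hf0 h'
  have h1 := order_eq_mult_mul_ord L F₀ hq hg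
  have h2 : (g : LaurentSeries L).order = -1 := by
    show (coeffEmb L f).order = -1
    rw [order_coeffEmb, hord]
  rw [h2] at h1
  have hpos := IntVal.mult_pos (qVal_isNontrivial L F₀ hq)
  have hdvd : IntVal.mult (qVal_isNontrivial L F₀ hq) ∣ 1 :=
    ⟨-(qPlace L F₀ hq).ord g, by linarith⟩
  exact Int.eq_one_of_dvd_one hpos.le hdvd

/-- if `F₀` contains an element of order `-1`, `ord` at the `q`-place is the `q`-adic order -/
theorem qPlace_ord (hq : ∃ f ∈ F₀, f.order ≠ 0) (hq1 : ∃ f ∈ F₀, f.order = -1)
    (g : ↥(laurentBaseChange L F₀)) :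
    (qPlace L F₀ hq).ord g = (g : LaurentSeries L).order := by
  rcases eq_or_ne g 0 with rfl | hg
  · simp
  · rw [order_eq_mult_mul_ord L F₀ hq hg, mult_qVal_eq_one L F₀ hq hq1, one_mul]

/-! ### invariance under the coefficientwise Galois action -/

theorem QP.coe_arithmeticGalois_smul' (σ : L ≃ₐ[ℚ] L) (g : ↥(laurentBaseChange L F₀)) :
    ((arithmeticGalois F₀ σ • g : ↥(laurentBaseChange L F₀)) : LaurentSeries L)
      = coeffMap (σ : L →+* L) (g : LaurentSeries L) :=
  coe_arithmeticGalois_smul F₀ σ g

/-- the coefficientwise action of `σ : L ≃ₐ[ℚ] L` preserves the `q`-adic order -/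
theorem order_arithmeticGalois_smul (σ : L ≃ₐ[ℚ] L) (g : ↥(laurentBaseChange L F₀)) :
    ((arithmeticGalois F₀ σ • g : ↥(laurentBaseChange L F₀)) : LaurentSeries L).order
      = (g : LaurentSeries L).order := by
  rw [coe_arithmeticGalois_smul']
  exact order_coeffMap (show Function.Injective ((σ : L →+* L)) from σ.injective) _

/-- ... and maps the leading coefficient to its image -/
theorem leadingCoeff_arithmeticGalois_smul (σ : L ≃ₐ[ℚ] L) (g : ↥(laurentBaseChange L F₀)) :
    ((arithmeticGalois F₀ σ • g : ↥(laurentBaseChange L F₀)) : LaurentSeries L).leadingCoeff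
      = σ (g : LaurentSeries L).leadingCoeff := by
  rw [coe_arithmeticGalois_smul']
  exact leadingCoeff_coeffMap (show Function.Injective ((σ : L →+* L)) from σ.injective) _

/-- the `q`-place is fixed by every element of the arithmetic Galois action -/
theorem arithmeticGalois_smul_qPlace (hq : ∃ f ∈ F₀, f.order ≠ 0) (σ : L ≃ₐ[ℚ] L) :
    arithmeticGalois F₀ σ • qPlace L F₀ hq = qPlace L F₀ hq := by
  apply Place.ext
  rw [SemilinearAut.smul_toValuationSubring]
  ext x
  rw [ValuationSubring.mem_pointwise_smul_iff_inv_smul_mem, ← map_inv, mem_qPlace_iff,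
    mem_qPlace_iff, order_arithmeticGalois_smul]
  constructor
  · rintro (h | h)
    · left
      have := congrArg (fun y => arithmeticGalois F₀ σ • y) h
      simpa using this
    · exact Or.inr h
  · rintro (rfl | h)
    · left
      simp
    · exact Or.inr h

theorem QP.galAct_eq (σ : L ≃ₐ[K] L) :
    galAct K L F₀ σ = arithmeticGalois F₀ (σ.restrictScalars ℚ) := rfl

theorem galAct_smul_qPlace (hq : ∃ f ∈ F₀, f.order ≠ 0) (σ : L ≃ₐ[K] L) :
    galAct K L F₀ σ • qPlace L F₀ hq = qPlace L F₀ hq :=
  arithmeticGalois_smul_qPlace L F₀ hq (σ.restrictScalars ℚ)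

/-- the coefficientwise action of `L ≃ₐ[K] L` preserves the `q`-adic order -/
theorem order_galAct_smul (σ : L ≃ₐ[K] L) (g : ↥(laurentBaseChange L F₀)) :
    ((galAct K L F₀ σ • g : ↥(laurentBaseChange L F₀)) : LaurentSeries L).order
      = (g : LaurentSeries L).order :=
  order_arithmeticGalois_smul L F₀ (σ.restrictScalars ℚ) g

/-- ... and maps the leading coefficient to its image -/
theorem leadingCoeff_galAct_smul (σ : L ≃ₐ[K] L) (g : ↥(laurentBaseChange L F₀)) :
    ((galAct K L F₀ σ • g : ↥(laurentBaseChange L F₀)) : LaurentSeries L).leadingCoeff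
      = σ (g : LaurentSeries L).leadingCoeff :=
  leadingCoeff_arithmeticGalois_smul L F₀ (σ.restrictScalars ℚ) g

end Fermat.Agent.GJ.Desc
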