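/-
GATE-J / J2-DESC (helper84): the descent theorem with the `q`-adic place as Galois-fixed place
and the Riemann–Roch instances from T24 (`IsGen`), still in hypothesis form for the two inputs
GEN (`IsGen L (bcHom x₀)`) and PL (`hover`: places of `F_K` extend to `F_L` with `e = 1`).
-/
import Fermat.Agent.GJ.Desc.Main
import Fermat.Agent.GJ.Desc.QPlace
import Fermat.Agent.RR.CharZero

set_option autoImplicit false
set_option linter.unusedSectionVars false
set_option linter.unusedVariables false

noncomputable section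

open HahnSeries IntermediateField AlgebraicCurve ModularCurve

namespace Fermat.Agent.GJ.Desc

open Fermat.Agent.RRh45 Fermat.Agent.S24

variable (K L : Type*) [Field K] [Field L] [Algebra ℚ K] [Algebra ℚ L] [Algebra K L]
  [IsScalarTower ℚ K L]
variable (F₀ : IntermediateField ℚ (LaurentSeries ℚ))

/-- **Descent of Kummer classes** given a generator of `F_L` and unramified extension of places. -/
theorem descent_of_gen [IsAlgClosed K] [IsAlgClosed L] (y : ↥(laurentBaseChange L F₀)) [IsGen L y]
    (hover : ∀ P : Place K ↥(laurentBaseChange K F₀), ∃ Q : Place L ↥(laurentBaseChange L F₀),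
      ∀ f : ↥(laurentBaseChange K F₀), Q.ord (bcHom K L F₀ f) = P.ord f)
    (hq : ∃ f ∈ F₀, f.order ≠ 0) (p : ℕ) (hp : 0 < p)
    (hfin : ∃ S : Finset ↥(laurentBaseChange L F₀), ∀ g : ↥(laurentBaseChange L F₀), g ≠ 0 →
      (∀ Q : Place L ↥(laurentBaseChange L F₀), (p : ℤ) ∣ Q.ord g) →
      ∃ s ∈ S, ∃ v : ↥(laurentBaseChange L F₀), v ≠ 0 ∧ g = s * v ^ p)
    (u : ↥(laurentBaseChange L F₀)) (hu : u ≠ 0)
    (hdiv : ∀ Q : Place L ↥(laurentBaseChange L F₀), (p : ℤ) ∣ Q.ord u) :
    ∃ u₀ : ↥(laurentBaseChange K F₀), u₀ ≠ 0 ∧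
      (∀ P : Place K ↥(laurentBaseChange K F₀), (p : ℤ) ∣ P.ord u₀) ∧
      ∃ v : ↥(laurentBaseChange L F₀), v ≠ 0 ∧ u = bcHom K L F₀ u₀ * v ^ p := by
  have : CharZero K := charZero_of_injective_algebraMap (algebraMap ℚ K).injective
  have : CharZero L := charZero_of_injective_algebraMap (algebraMap ℚ L).injective
  have : FiniteResidues L ↥(laurentBaseChange L F₀) := Fermat.Agent.RR.CharZero.finiteResidues y
  have : HasPrincipalDivisors L ↥(laurentBaseChange L F₀) := FF1.hasPrincipalDivisors (K := L) y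
  exact descent_core K L F₀ (qPlace L F₀ hq) (PlaceB.deg_eq_one _ y)
    (fun σ => galAct_smul_qPlace K L F₀ hq σ) hover p hp hfin u hu hdiv

end Fermat.Agent.GJ.Desc
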