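/-
GATE-J / J2-DESC (helper84): the descent theorem specialised to `ℚ̄ ⊆ ℂ` (embedding T24 `iotaC`),
`F₀ = modularFunctionFieldFull N`, stated for helper99's shared Kummer group
(`Fermat.Agent.GJ.KumGroup.pDivUnits`).  Inputs still in hypothesis form: GEN (a generator of the
function field over `ℂ`) and PL (`hover`).
-/
import Fermat.Agent.GJ.Desc.Final
import Fermat.Agent.GJ.J2.EigIface
import Fermat.Agent.S24_helper62.FieldGen
import Fermat.Agent.S28.UnitOrders

set_option autoImplicit false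
set_option linter.unusedSectionVars false
set_option linter.unusedVariables false

noncomputable section

open HahnSeries IntermediateField AlgebraicCurve ModularCurve

namespace Fermat.Agent.GJ.Desc.Modular

open Fermat.Agent.GJ.KumGroup Fermat.Agent.S24 Fermat.Agent.GJ.Desc

/-- `ℂ` as a `ℚ̄`-algebra through T24's fixed embedding `iotaC` -/
scoped instance algebraKbC : Algebra Kb ℂ := Fermat.Agent.S24_helper62.iotaC.toAlgebra

scoped instance isScalarTowerKbC : IsScalarTower ℚ Kb ℂ :=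
  IsScalarTower.of_algebraMap_eq' (Subsingleton.elim _ _)

theorem algebraMap_Kb_C : algebraMap Kb ℂ = Fermat.Agent.S24_helper62.iotaC := rfl

variable (N : ℕ) [NeZero N]

/-- the function field of `X₀(N)` over `ℂ` (= helper49's `Dict.FC N`) -/
abbrev FCd : Type := ↥(laurentBaseChange ℂ (modularFunctionFieldFull N))

/-- base change `ℚ̄(X₀(N)) → ℂ(X₀(N))`, coefficientwise `iotaC` -/
def bc : FK N →+* FCd N := bcHom Kb ℂ (modularFunctionFieldFull N)

theorem coe_bc (f : FK N) :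
    ((bc N f : FCd N) : LaurentSeries ℂ)
      = coeffMap Fermat.Agent.S24_helper62.iotaC (f : LaurentSeries Kb) := rfl

theorem bc_injective : Function.Injective (bc N) := (bc N).injective

theorem exists_order_ne_zero : ∃ f ∈ modularFunctionFieldFull N, f.order ≠ 0 := by
  refine ⟨jq, modularFunctionField_le_full N (jq_mem N), ?_⟩
  rw [← jqModC_rat, Fermat.Agent.S28.order_jqModC]
  decide

/-- finiteness of the Kummer group in the shape used by `descent_core` -/
theorem exists_finset_of_finite {K F : Type*} [Field K] [Field F] [Algebra K F] (p : ℕ)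
    (hfin : Finite (Kum K F p)) :
    ∃ S : Finset F, ∀ g : F, g ≠ 0 → (∀ Q : Place K F, (p : ℤ) ∣ Q.ord g) →
      ∃ s ∈ S, ∃ v : F, v ≠ 0 ∧ g = s * v ^ p := by
  classical
  have := Fintype.ofFinite (Kum K F p)
  have hsurj := Kum.mk_surjective (K := K) (F := F) (p := p)
  let rep : Kum K F p → pDivUnits K F p := fun k => (hsurj k).choose
  have hrep : ∀ k, Kum.mk (rep k) = k := fun k => (hsurj k).choose_spec
  refine ⟨Finset.univ.image fun k => (((rep k : pDivUnits K F p) : Fˣ) : F), fun g hg hdiv => ?_⟩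
  let gu : pDivUnits K F p := ⟨Units.mk0 g hg, hdiv⟩
  refine ⟨_, Finset.mem_image.mpr ⟨Kum.mk gu, Finset.mem_univ _, rfl⟩, ?_⟩
  obtain ⟨w, hw⟩ := Kum.mk_eq_mk_iff.mp (hrep (Kum.mk gu))
  refine ⟨(w : F), w.ne_zero, ?_⟩
  have h := congrArg (fun z : Fˣ => (z : F)) hw
  have hg' : (((gu : pDivUnits K F p) : Fˣ) : F) = g := rfl
  rw [← hg']
  simpa using h

/-- **Descent ℂ → ℚ̄ of Kummer classes of `X₀(N)`** (inputs GEN, PL, KUM-FIN as hypotheses). -/
theorem desc (p : ℕ) (hp : 0 < p) (y : FCd N) [IsGen ℂ y]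
    (hover : ∀ P : Place Kb (FK N), ∃ Q : Place ℂ (FCd N), ∀ f : FK N, Q.ord (bc N f) = P.ord f)
    (hfin : Finite (Kum ℂ (FCd N) p)) (u : pDivUnits ℂ (FCd N) p) :
    ∃ u₀ : pDivUnits Kb (FK N) p, ∃ w : (FCd N)ˣ,
      Units.map (bc N : FK N →* FCd N) (u₀ : (FK N)ˣ) = (u : (FCd N)ˣ) * w ^ p := by
  obtain ⟨u₀, hu₀0, hu₀div, v, hv0, huv⟩ :=
    descent_of_gen Kb ℂ (modularFunctionFieldFull N) y hover (exists_order_ne_zero N) p hp
      (exists_finset_of_finite p hfin) ((u : (FCd N)ˣ) : FCd N) (Units.ne_zero _) u.2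
  refine ⟨⟨Units.mk0 u₀ hu₀0, hu₀div⟩, (Units.mk0 v hv0)⁻¹, ?_⟩
  apply Units.ext
  have h1 : ((Units.map (bc N : FK N →* FCd N) (Units.mk0 u₀ hu₀0) : (FCd N)ˣ) : FCd N)
      = bc N u₀ := rfl
  have h2 : (((u : (FCd N)ˣ) * (Units.mk0 v hv0)⁻¹ ^ p : (FCd N)ˣ) : FCd N)
      = ((u : (FCd N)ˣ) : FCd N) * (v ^ p)⁻¹ := by
    simp
  show ((Units.map (bc N : FK N →* FCd N) (Units.mk0 u₀ hu₀0) : (FCd N)ˣ) : FCd N) = _
  rw [h1, h2, huv]
  have : v ^ p ≠ 0 := pow_ne_zero _ hv0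
  show bc N u₀ = bcHom Kb ℂ (modularFunctionFieldFull N) u₀ * v ^ p * (v ^ p)⁻¹
  rw [mul_assoc, mul_inv_cancel₀ this, mul_one]
  rfl

/-- injectivity of `Kum ℚ̄ → Kum ℂ`: a function over `ℚ̄` that becomes a `p`-th power over `ℂ` is a
`p`-th power over `ℚ̄` -/
theorem isPow_of_bc_eq_pow (p : ℕ) (hp : 0 < p) (u₀ : FK N) (v : FCd N) (h : bc N u₀ = v ^ p) :
    ∃ v₀ : FK N, u₀ = v₀ ^ p := by
  have : CharZero Kb := charZero_of_injective_algebraMap (algebraMap ℚ Kb).injective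
  exact isPow_of_bcHom_eq_pow Kb ℂ (modularFunctionFieldFull N) p hp u₀ v h

end Fermat.Agent.GJ.Desc.Modular
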