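/-
GATE-J / J2-DESC brick GEN (helper21): base change of a generator.
For `x : F_K` a generator (`S24.IsGen K x`), `bcHom x : F_L` is a generator of `F_L` over `L` and
`[F_L : L(bcHom x)] ≤ [F_K : K(x)]`.  Statements exactly as in `GJ/Desc/Skeleton.lean`.
-/
import Fermat.Agent.GJ.Desc.Retract
import Fermat.Agent.S24.Gen

set_option autoImplicit false
set_option linter.unusedSectionVars false
set_option linter.unusedVariables false
set_option synthInstance.maxHeartbeats 400000
set_option maxHeartbeats 1000000

noncomputable section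

open HahnSeries IntermediateField AlgebraicCurve ModularCurve Polynomial

namespace Fermat.Agent.GJ.Desc

open Fermat.Agent.S24

variable (K L : Type*) [Field K] [Field L] [Algebra ℚ K] [Algebra ℚ L] [Algebra K L]
  [IsScalarTower ℚ K L]
variable (F₀ : IntermediateField ℚ (LaurentSeries ℚ))

/-! ### transcendence -/

/-- apply a `K`-linear functional `L → K` to the coefficients of a polynomial -/
def polyFunctional (φ : L →ₗ[K] K) (P : L[X]) : K[X] :=
  ∑ n ∈ P.support, monomial n (φ (P.coeff n))

theorem coeff_polyFunctional (φ : L →ₗ[K] K) (P : L[X]) (n : ℕ) :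
    (polyFunctional K L φ P).coeff n = φ (P.coeff n) := by
  classical
  rw [polyFunctional, finsetSum_coeff]
  simp only [coeff_monomial]
  rw [Finset.sum_ite_eq' P.support n]
  split_ifs with h
  · rfl
  · rw [notMem_support_iff.mp h, map_zero]

theorem natDegree_polyFunctional_le (φ : L →ₗ[K] K) (P : L[X]) :
    (polyFunctional K L φ P).natDegree ≤ P.natDegree := by
  rw [natDegree_le_iff_coeff_eq_zero]
  intro N hN
  rw [coeff_polyFunctional, coeff_eq_zero_of_natDegree_lt hN, map_zero]

/-- coefficientwise: a polynomial relation for `coeffMap y` over `L` gives one for `y` over `K`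
after applying any functional. -/
theorem aeval_polyFunctional_eq_zero (φ : L →ₗ[K] K) (P : L[X]) (y : LaurentSeries K)
    (h : aeval (coeffMap (algebraMap K L) y) P = 0) :
    aeval y (polyFunctional K L φ P) = 0 := by
  have hN : P.natDegree < P.natDegree + 1 := Nat.lt_succ_self _
  have hN' : (polyFunctional K L φ P).natDegree < P.natDegree + 1 :=
    lt_of_le_of_lt (natDegree_polyFunctional_le K L φ P) hN
  rw [aeval_eq_sum_range' hN] at h
  rw [aeval_eq_sum_range' hN']
  ext k
  have hk := congrArg (fun z : LaurentSeries L => φ (z.coeff k)) h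
  simp only [HahnSeries.coeff_zero, map_zero] at hk
  rw [HahnSeries.coeff_zero, ← hk]
  rw [HahnSeries.coeff_sum, HahnSeries.coeff_sum]
  rw [map_sum]
  refine Finset.sum_congr rfl fun i _ => ?_
  rw [Algebra.smul_def, Algebra.smul_def, coeff_algebraMap_mul, coeff_algebraMap_mul,
    coeff_polyFunctional, ← map_pow, coeffMap_coeff]
  rw [show P.coeff i * algebraMap K L ((y ^ i).coeff k) = (y ^ i).coeff k • P.coeff i by
    rw [Algebra.smul_def, mul_comm]]
  rw [map_smul, smul_eq_mul, mul_comm]

theorem transcendental_bcHom {x : ↥(laurentBaseChange K F₀)} (hx : Transcendental K x) :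
    Transcendental L (bcHom K L F₀ x) := by
  rw [transcendental_iff] at hx ⊢
  intro P hP
  -- move the relation to `LaurentSeries L`
  have hP' : aeval (coeffMap (algebraMap K L) (x : LaurentSeries K)) P = 0 := by
    have := congrArg (fun z : ↥(laurentBaseChange L F₀) => (z : LaurentSeries L)) hP
    simp only [ZeroMemClass.coe_zero] at this
    rw [← this]
    exact (aeval_algHom_apply (laurentBaseChange L F₀).val (bcHom K L F₀ x) P)
  have hzero : ∀ φ : L →ₗ[K] K, polyFunctional K L φ P = 0 := by
    intro φ
    apply hx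
    have h1 := aeval_polyFunctional_eq_zero K L φ P (x : LaurentSeries K) hP'
    apply Subtype.ext
    rw [ZeroMemClass.coe_zero, ← h1]
    exact (aeval_algHom_apply (laurentBaseChange K F₀).val x (polyFunctional K L φ P)).symm
  ext n
  rw [Polynomial.coeff_zero]
  refine (Module.forall_dual_apply_eq_zero_iff K (P.coeff n)).mp fun φ => ?_
  have := congrArg (fun Q : K[X] => Q.coeff n) (hzero φ)
  simpa [coeff_polyFunctional] using this

/-! ### generation and degree -/

/-- `bcHom` maps `K(x)` into `L(bcHom x)` -/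
theorem bcHom_mem_adjoin_simple (x : ↥(laurentBaseChange K F₀)) {r : ↥(laurentBaseChange K F₀)}
    (hr : r ∈ K⟮x⟯) : bcHom K L F₀ r ∈ L⟮bcHom K L F₀ x⟯ := by
  induction hr using IntermediateField.adjoin_induction with
  | mem y hy =>
      have hy' : y = x := by simpa using hy
      rw [hy']
      exact IntermediateField.mem_adjoin_simple_self L _
  | algebraMap a =>
      rw [bcHom_algebraMap]
      exact IntermediateField.algebraMap_mem _ _
  | add a b _ _ ha hb =>
      rw [map_add]
      exact add_mem ha hb
  | inv a _ ha =>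
      rw [map_inv₀]
      exact inv_mem ha
  | mul a b _ _ ha hb =>
      rw [map_mul]
      exact mul_mem ha hb

section Span

variable {ι : Type*} [Fintype ι] (x : ↥(laurentBaseChange K F₀))
  (b : Module.Basis ι K⟮x⟯ ↥(laurentBaseChange K F₀))

/-- the `L(bcHom x)`-span of the image of a `K(x)`-basis of `F_K` -/
def genSpan : Submodule L⟮bcHom K L F₀ x⟯ ↥(laurentBaseChange L F₀) :=
  Submodule.span L⟮bcHom K L F₀ x⟯ (Set.range fun i => bcHom K L F₀ (b i))

theorem bcHom_mem_genSpan (f : ↥(laurentBaseChange K F₀)) :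
    bcHom K L F₀ f ∈ genSpan K L F₀ x b := by
  rw [← b.sum_repr f, map_sum]
  refine Submodule.sum_mem _ fun i _ => ?_
  rw [Algebra.smul_def, map_mul]
  have h1 : bcHom K L F₀ (algebraMap K⟮x⟯ ↥(laurentBaseChange K F₀) (b.repr f i))
      ∈ L⟮bcHom K L F₀ x⟯ :=
    bcHom_mem_adjoin_simple K L F₀ x (b.repr f i).2
  have h2 : bcHom K L F₀ (b i) ∈ genSpan K L F₀ x b :=
    Submodule.subset_span ⟨i, rfl⟩
  have := (genSpan K L F₀ x b).smul_mem
    (⟨_, h1⟩ : L⟮bcHom K L F₀ x⟯) h2
  rwa [Algebra.smul_def] at this

theorem genSpan_eq_top : genSpan K L F₀ x b = ⊤ := by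
  classical
  set E' := L⟮bcHom K L F₀ x⟯ with hE'
  set T : Set ↥(laurentBaseChange L F₀) := Set.range fun i => bcHom K L F₀ (b i) with hT
  -- the subalgebra generated by `T` has underlying module `genSpan`
  have hA : Subalgebra.toSubmodule (Algebra.adjoin E' T) = genSpan K L F₀ x b := by
    apply le_antisymm
    · rw [Algebra.adjoin_eq_span, Submodule.span_le]
      intro z hz
      have hz' : z ∈ Set.range (bcHom K L F₀) := by
        have hle : Submonoid.closure T ≤ MonoidHom.mrange (bcHom K L F₀).toMonoidHom := by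
          rw [Submonoid.closure_le]
          rintro _ ⟨i, rfl⟩
          exact ⟨b i, rfl⟩
        obtain ⟨f, hf⟩ := hle hz
        exact ⟨f, hf⟩
      obtain ⟨f, rfl⟩ := hz'
      exact bcHom_mem_genSpan K L F₀ x b f
    · rw [genSpan, Submodule.span_le]
      intro z hz
      exact Algebra.subset_adjoin hz
  have hfg : (Subalgebra.toSubmodule (Algebra.adjoin E' T)).FG := by
    rw [hA]
    exact Submodule.fg_span (Set.finite_range _)
  -- hence all elements of `T` are algebraic over `E'`, and the field generated is the subalgebra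
  have halg : ∀ z ∈ T, IsAlgebraic E' z := fun z hz =>
    (IsIntegral.of_mem_of_fg _ hfg z (Algebra.subset_adjoin hz)).isAlgebraic
  have hN : (IntermediateField.adjoin E' T).toSubalgebra = Algebra.adjoin E' T :=
    IntermediateField.adjoin_toSubalgebra_of_isAlgebraic halg
  -- the field generated is everything
  have htop : (IntermediateField.adjoin E' T).restrictScalars L = ⊤ := by
    rw [eq_top_iff, ← adjoin_range_bcHom K L F₀, IntermediateField.adjoin_le_iff]
    rintro _ ⟨f, rfl⟩
    show bcHom K L F₀ f ∈ IntermediateField.adjoin E' T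
    have h1 := bcHom_mem_genSpan K L F₀ x b f
    rw [← hA] at h1
    have h2 : bcHom K L F₀ f ∈ (IntermediateField.adjoin E' T).toSubalgebra := by
      rw [hN]; exact h1
    exact h2
  rw [eq_top_iff]
  intro g _
  have hg : g ∈ (IntermediateField.adjoin E' T).restrictScalars L := by
    rw [htop]; exact IntermediateField.mem_top
  have hg' : g ∈ (IntermediateField.adjoin E' T).toSubalgebra := hg
  rw [hN] at hg'
  rw [← hA]
  exact hg'

end Span

theorem isGen_bcHom [CharZero K] (x : ↥(laurentBaseChange K F₀)) [IsGen K x] :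
    IsGen L (bcHom K L F₀ x) := by
  refine ⟨transcendental_bcHom K L F₀ (IsGen.transcendental (K := K) (x := x)), ?_⟩
  let b := Module.finBasis K⟮x⟯ ↥(laurentBaseChange K F₀)
  have htop := genSpan_eq_top K L F₀ x b
  refine Module.finite_def.mpr ?_
  rw [← htop]
  exact Submodule.fg_span (Set.finite_range _)

theorem finrank_bcHom_le [CharZero K] (x : ↥(laurentBaseChange K F₀)) [IsGen K x] :
    Module.finrank L⟮bcHom K L F₀ x⟯ ↥(laurentBaseChange L F₀)
      ≤ Module.finrank K⟮x⟯ ↥(laurentBaseChange K F₀) := by
  let b := Module.finBasis K⟮x⟯ ↥(laurentBaseChange K F₀)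
  have htop := genSpan_eq_top K L F₀ x b
  have h1 : Module.finrank L⟮bcHom K L F₀ x⟯ ↥(laurentBaseChange L F₀)
      = Module.finrank L⟮bcHom K L F₀ x⟯ ↥(genSpan K L F₀ x b) := by
    rw [htop, finrank_top]
  rw [h1]
  have h2 : Module.finrank L⟮bcHom K L F₀ x⟯ ↥(genSpan K L F₀ x b)
      ≤ Fintype.card (Fin (Module.finrank K⟮x⟯ ↥(laurentBaseChange K F₀))) :=
    finrank_range_le_card (R := L⟮bcHom K L F₀ x⟯) (fun i => bcHom K L F₀ (b i))
  rwa [Fintype.card_fin] at h2

end Fermat.Agent.GJ.Desc
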