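/-
GATE-J / J2-DESC brick PL (helper66): places of `F_L` over places of `F_K` for a change of
algebraically closed constant fields `K ⊆ L`.

* `resVal Q` : the restriction of a place `Q` of `F_L` to `F_K` as `IntVal` data;
* `dvd_ord_bcHom` : `p ∣ div u₀` is preserved by base change;
* `exists_place_over_weak` : lying over (Chevalley + linear disjointness);
* `exists_place_over` : constant field extensions are unramified (`e = 1`, by counting).
Statements exactly as in `GJ/Desc/Skeleton.lean`.
-/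
import Fermat.Agent.GJ.Desc.LinDisj
import Fermat.Agent.GJ.Desc.Gen
import Fermat.Agent.S24.IntVal
import Fermat.Agent.S24.PlaceBasic
import Fermat.Agent.GJ.FF.ValRing
import Fermat.Agent.RR_helper45.Basic
import Fermat.Agent.RR.BoundAdjoin
import Fermat.Agent.GJ.FF.PrincipalGen
import Fermat.Agent.S24.DegOne

set_option autoImplicit false
set_option linter.unusedSectionVars false
set_option linter.unusedVariables false

noncomputable section

open HahnSeries IntermediateField AlgebraicCurve ModularCurve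

namespace Fermat.Agent.GJ.Desc

open Fermat.Agent.S24 Fermat.Agent.RRh45

variable (K L : Type*) [Field K] [Field L] [Algebra ℚ K] [Algebra ℚ L] [Algebra K L]
  [IsScalarTower ℚ K L]
variable (F₀ : IntermediateField ℚ (LaurentSeries ℚ))

theorem bcHom_ne_zero {f : ↥(laurentBaseChange K F₀)} (hf : f ≠ 0) : bcHom K L F₀ f ≠ 0 :=
  (map_ne_zero_iff _ (bcHom_injective K L F₀)).mpr hf

/-- restriction of a place of `F_L` to `F_K` as valuation data (T24 `IntVal`); if nontrivial,
`IntVal.placeOf`, `IntVal.mult`, `IntVal.eq_mult_mul_ord` give the place below and `e`. -/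
def resVal (Q : Place L ↥(laurentBaseChange L F₀)) : IntVal K ↥(laurentBaseChange K F₀) where
  toFun f := Q.ord (bcHom K L F₀ f)
  map_mul' hf hg := by
    rw [map_mul]
    exact Q.ord_mul (bcHom_ne_zero K L F₀ hf) (bcHom_ne_zero K L F₀ hg)
  map_add' hf hg hfg := by
    rw [map_add]
    refine PlaceB.ord_add_ge Q (bcHom_ne_zero K L F₀ hf) (bcHom_ne_zero K L F₀ hg) ?_
    rw [← map_add]
    exact bcHom_ne_zero K L F₀ hfg
  map_algebraMap' c hc := by
    rw [bcHom_algebraMap]
    exact PlaceB.ord_algebraMap Q ((map_ne_zero (algebraMap K L)).mpr hc)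

theorem resVal_apply (Q : Place L ↥(laurentBaseChange L F₀)) (f : ↥(laurentBaseChange K F₀)) :
    resVal K L F₀ Q f = Q.ord (bcHom K L F₀ f) := rfl

/-- `(b→)`: `p ∣ div` is preserved by base change (no `e = 1` needed) -/
theorem dvd_ord_bcHom (p : ℕ) (u₀ : ↥(laurentBaseChange K F₀))
    (h : ∀ P : Place K ↥(laurentBaseChange K F₀), (p : ℤ) ∣ P.ord u₀)
    (Q : Place L ↥(laurentBaseChange L F₀)) : (p : ℤ) ∣ Q.ord (bcHom K L F₀ u₀) := by
  rcases eq_or_ne u₀ 0 with rfl | hu
  · simp
  by_cases hnt : (resVal K L F₀ Q).IsNontrivial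
  · have := IntVal.eq_mult_mul_ord hnt hu
    rw [resVal_apply] at this
    rw [this]
    exact Dvd.dvd.mul_left (h _) _
  · have h0 : Q.ord (bcHom K L F₀ u₀) = 0 := by
      by_contra hne
      exact hnt ⟨u₀, hu, hne⟩
    rw [h0]
    exact dvd_zero _

/-! ### `1` is not an `L`-combination of elements of a proper `K`-subspace -/

/-- A `K`-linear retraction `L → K` of the structure map. -/
theorem exists_retraction : ∃ φ : L →ₗ[K] K, ∀ a : K, φ (algebraMap K L a) = a := by
  obtain ⟨g, hg⟩ := LinearMap.exists_leftInverse_of_injective (Algebra.linearMap K L)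
    (LinearMap.ker_eq_bot.mpr (algebraMap K L).injective)
  exact ⟨g, fun a => by simpa using LinearMap.congr_fun hg a⟩

/-- Linear disjointness, form 2: if `1 ∉ N` for a `K`-subspace `N` of `F_K`, then `1` is not in
the `L`-span of the image of `N` in `F_L`. -/
theorem one_notMem_span_bcHom (N : Submodule K ↥(laurentBaseChange K F₀))
    (hN : (1 : ↥(laurentBaseChange K F₀)) ∉ N) :
    (1 : ↥(laurentBaseChange L F₀)) ∉
      Submodule.span L ((bcHom K L F₀) '' (N : Set ↥(laurentBaseChange K F₀))) := by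
  obtain ⟨φ, hφ⟩ := exists_retraction K L
  intro h1
  have key : ∀ g ∈ Submodule.span L ((bcHom K L F₀) '' (N : Set ↥(laurentBaseChange K F₀))),
      ∀ l' : L, ∃ a ∈ N, ∀ n : ℤ,
        φ (l' * ((g : ↥(laurentBaseChange L F₀)) : LaurentSeries L).coeff n)
          = ((a : ↥(laurentBaseChange K F₀)) : LaurentSeries K).coeff n := by
    intro g hg
    induction hg using Submodule.span_induction with
    | mem x hx =>
      obtain ⟨a₀, ha₀, rfl⟩ := hx
      intro l'
      refine ⟨φ l' • a₀, N.smul_mem _ ha₀, fun n => ?_⟩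
      rw [coe_bcHom, coeffMap_coeff]
      have : l' * algebraMap K L ((a₀ : LaurentSeries K).coeff n)
          = ((a₀ : LaurentSeries K).coeff n) • l' := by
        rw [Algebra.smul_def, mul_comm]
      rw [this, map_smul, smul_eq_mul]
      have hc : ((φ l' • a₀ : ↥(laurentBaseChange K F₀)) : LaurentSeries K)
          = algebraMap K (LaurentSeries K) (φ l') * (a₀ : LaurentSeries K) := by
        rw [Algebra.smul_def]; rfl
      rw [hc, coeff_algebraMap_mul K, mul_comm]
    | zero =>
      intro l'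
      exact ⟨0, N.zero_mem, fun n => by simp⟩
    | add x y _ _ hx hy =>
      intro l'
      obtain ⟨a, ha, hxa⟩ := hx l'
      obtain ⟨b, hb, hyb⟩ := hy l'
      refine ⟨a + b, N.add_mem ha hb, fun n => ?_⟩
      have e1 : ((x + y : ↥(laurentBaseChange L F₀)) : LaurentSeries L)
          = (x : LaurentSeries L) + (y : LaurentSeries L) := rfl
      have e2 : ((a + b : ↥(laurentBaseChange K F₀)) : LaurentSeries K)
          = (a : LaurentSeries K) + (b : LaurentSeries K) := rfl
      rw [e1, e2, HahnSeries.coeff_add, HahnSeries.coeff_add, mul_add, map_add, hxa n, hyb n]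
    | smul l x _ hx =>
      intro l'
      obtain ⟨a, ha, hxa⟩ := hx (l' * l)
      refine ⟨a, ha, fun n => ?_⟩
      have e1 : ((l • x : ↥(laurentBaseChange L F₀)) : LaurentSeries L)
          = algebraMap L (LaurentSeries L) l * (x : LaurentSeries L) := by
        rw [Algebra.smul_def]; rfl
      rw [e1, coeff_algebraMap_mul L, ← mul_assoc]
      exact hxa n
  obtain ⟨a, ha, hcoeff⟩ := key 1 h1 1
  apply hN
  have : a = 1 := by
    apply Subtype.ext
    ext n
    rw [← hcoeff n]
    have e1 : ((1 : ↥(laurentBaseChange L F₀)) : LaurentSeries L) = 1 := rfl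
    have e2 : ((1 : ↥(laurentBaseChange K F₀)) : LaurentSeries K) = 1 := rfl
    rw [e1, e2, one_mul, HahnSeries.coeff_one, HahnSeries.coeff_one]
    split_ifs
    · simpa using hφ 1
    · simp
  rwa [this] at ha

/-! ### Lying over -/

section Weak

variable {K F₀} in
theorem mul_mem_ordGE (P : Place K ↥(laurentBaseChange K F₀)) {a b : ℤ}
    {f g : ↥(laurentBaseChange K F₀)} (hf : f ∈ ordGE P a) (hg : g ∈ ordGE P b) :
    f * g ∈ ordGE P (a + b) := by
  rw [mem_ordGE] at hf hg ⊢
  rcases hf with rfl | hf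
  · left; simp
  rcases hg with rfl | hg
  · left; simp
  by_cases hf0 : f = 0
  · left; simp [hf0]
  by_cases hg0 : g = 0
  · left; simp [hg0]
  right
  rw [P.ord_mul hf0 hg0]
  linarith

variable {K F₀} in
theorem one_notMem_ordGE_one (P : Place K ↥(laurentBaseChange K F₀)) :
    (1 : ↥(laurentBaseChange K F₀)) ∉ ordGE P 1 := by
  rw [mem_ordGE]
  rintro (h | h)
  · exact one_ne_zero h
  · rw [Place.ord_one] at h
    exact absurd h (by norm_num)

variable {K F₀} in
theorem mem_ordGE_zero_iff (P : Place K ↥(laurentBaseChange K F₀))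
    (f : ↥(laurentBaseChange K F₀)) : f ∈ ordGE P 0 ↔ f ∈ P.toValuationSubring := by
  rw [mem_ordGE]
  by_cases hf : f = 0
  · simp [hf, P.toValuationSubring.zero_mem]
  · rw [PlaceB.ord_nonneg_iff P hf]
    simp [hf]

/-- **Chevalley**: a valuation ring of `F_L` containing `L` and the image of `O_P`, whose maximal
ideal contains the image of the maximal ideal of `O_P`. -/
theorem exists_valuationSubring_over (P : Place K ↥(laurentBaseChange K F₀)) :
    ∃ O : ValuationSubring ↥(laurentBaseChange L F₀),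
      (∀ l : L, algebraMap L ↥(laurentBaseChange L F₀) l ∈ O) ∧
      (∀ f : ↥(laurentBaseChange K F₀), f ∈ ordGE P 0 → bcHom K L F₀ f ∈ O) ∧
      (∀ f : ↥(laurentBaseChange K F₀), f ∈ ordGE P 1 → bcHom K L F₀ f ∈ O.nonunits) := by
  classical
  set SO : Set ↥(laurentBaseChange L F₀) :=
    (bcHom K L F₀) '' (ordGE P 0 : Set ↥(laurentBaseChange K F₀)) with hSO
  set Sm : Set ↥(laurentBaseChange L F₀) :=
    (bcHom K L F₀) '' (ordGE P 1 : Set ↥(laurentBaseChange K F₀)) with hSm
  set MO : Submodule L ↥(laurentBaseChange L F₀) := Submodule.span L SO with hMO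
  set Mm : Submodule L ↥(laurentBaseChange L F₀) := Submodule.span L Sm with hMm
  have hOO : MO * MO ≤ MO := by
    rw [hMO, Submodule.span_mul_span]
    refine Submodule.span_mono ?_
    rintro _ ⟨_, ⟨f, hf, rfl⟩, _, ⟨g, hg, rfl⟩, rfl⟩
    refine ⟨f * g, ?_, map_mul _ _ _⟩
    have := mul_mem_ordGE P hf hg
    simpa using this
  have hOm : MO * Mm ≤ Mm := by
    rw [hMO, hMm, Submodule.span_mul_span]
    refine Submodule.span_mono ?_
    rintro _ ⟨_, ⟨f, hf, rfl⟩, _, ⟨g, hg, rfl⟩, rfl⟩
    refine ⟨f * g, ?_, map_mul _ _ _⟩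
    have := mul_mem_ordGE P hf hg
    simpa using this
  have h1O : (1 : ↥(laurentBaseChange L F₀)) ∈ MO := by
    refine Submodule.subset_span ⟨1, ?_, map_one _⟩
    show (1 : ↥(laurentBaseChange K F₀)) ∈ ordGE P 0
    rw [mem_ordGE]; right; simp
  -- the subalgebra generated by the image of `O_P`
  set A : Subalgebra L ↥(laurentBaseChange L F₀) := Algebra.adjoin L SO with hA
  have hAM : ∀ x ∈ A, x ∈ MO := by
    intro x hx
    induction hx using Algebra.adjoin_induction with
    | mem x hx => exact Submodule.subset_span hx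
    | algebraMap l =>
      have : algebraMap L ↥(laurentBaseChange L F₀) l = l • (1 : ↥(laurentBaseChange L F₀)) := by
        rw [Algebra.smul_def, mul_one]
      rw [this]
      exact MO.smul_mem l h1O
    | add x y _ _ hx hy => exact MO.add_mem hx hy
    | mul x y _ _ hx hy => exact hOO (Submodule.mul_mem_mul hx hy)
  -- the ideal generated by the image of `m_P`
  set I : Ideal A.toSubring := Ideal.span {a : A.toSubring | (a : ↥(laurentBaseChange L F₀)) ∈ Sm}
    with hI
  have hIM : ∀ x ∈ I, ((x : A.toSubring) : ↥(laurentBaseChange L F₀)) ∈ Mm := by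
    intro x hx
    induction hx using Submodule.span_induction with
    | mem x hx => exact Submodule.subset_span hx
    | zero => exact Mm.zero_mem
    | add x y _ _ hx hy => exact Mm.add_mem hx hy
    | smul a x _ hx =>
      have : ((a • x : A.toSubring) : ↥(laurentBaseChange L F₀))
          = (a : ↥(laurentBaseChange L F₀)) * (x : ↥(laurentBaseChange L F₀)) := rfl
      rw [this]
      exact hOm (Submodule.mul_mem_mul (hAM _ a.2) hx)
  have hItop : I ≠ ⊤ := by
    intro htop
    have h1 : (1 : A.toSubring) ∈ I := by rw [htop]; trivial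
    have := hIM 1 h1
    exact one_notMem_span_bcHom K L F₀ (ordGE P 1) (one_notMem_ordGE_one P) this
  obtain ⟨B, hAB, hnon⟩ := Ideal.image_subset_nonunits_valuationSubring I hItop
  refine ⟨B, fun l => hAB (A.algebraMap_mem l), fun f hf => ?_, fun f hf => ?_⟩
  · exact hAB (Algebra.subset_adjoin ⟨f, hf, rfl⟩)
  · have hmemA : bcHom K L F₀ f ∈ A.toSubring :=
      Algebra.subset_adjoin ⟨f, RRh45.ordGE_anti P (by norm_num : (0 : ℤ) ≤ 1) hf, rfl⟩
    have hmemI : (⟨bcHom K L F₀ f, hmemA⟩ : A.toSubring) ∈ I :=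
      Ideal.subset_span ⟨f, hf, rfl⟩
    exact hnon ⟨⟨bcHom K L F₀ f, hmemA⟩, hmemI, rfl⟩

/-- Lying over, given that `F_L` is a function field in one variable over `L`. -/
theorem exists_place_over_weak_aux (y : ↥(laurentBaseChange L F₀)) [IsGen L y]
    (P : Place K ↥(laurentBaseChange K F₀)) :
    ∃ Q : Place L ↥(laurentBaseChange L F₀), ∃ e : ℤ, 0 < e ∧
      ∀ f : ↥(laurentBaseChange K F₀), Q.ord (bcHom K L F₀ f) = e * P.ord f := by
  obtain ⟨O, hL, hO0, hO1⟩ := exists_valuationSubring_over K L F₀ P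
  -- a uniformizer of `P`
  set π : ↥(laurentBaseChange K F₀) := RRh45.unif P with hπ
  have hπ0 : π ≠ 0 := RRh45.unif_ne_zero P
  have hπord : P.ord π = 1 := RRh45.ord_unif P
  have hπ1 : π ∈ ordGE P 1 := by
    rw [mem_ordGE]; right; rw [hπord]
  have hbπ0 : bcHom K L F₀ π ≠ 0 := bcHom_ne_zero K L F₀ hπ0
  have hbπ : bcHom K L F₀ π ∈ O.nonunits := hO1 π hπ1
  have hOtop : O ≠ ⊤ := by
    rintro rfl
    have hlt := (ValuationSubring.mem_nonunits_iff (A := (⊤ : ValuationSubring _))).mp hbπ
    have hinv : (bcHom K L F₀ π)⁻¹ ∈ (⊤ : ValuationSubring ↥(laurentBaseChange L F₀)) :=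
      ValuationSubring.mem_top _
    have hle := ((⊤ : ValuationSubring ↥(laurentBaseChange L F₀)).valuation_le_one_iff _).mpr hinv
    rw [map_inv₀] at hle
    have hpos : 0 < (⊤ : ValuationSubring ↥(laurentBaseChange L F₀)).valuation (bcHom K L F₀ π) :=
      (Valuation.pos_iff _).mpr hbπ0
    have := (inv_le_one₀ hpos).mp hle
    exact absurd hlt (not_lt.mpr this)
  set Q : Place L ↥(laurentBaseChange L F₀) := Fermat.Agent.GJ.FF.placeOf y O hL hOtop with hQ
  have hQO : Q.toValuationSubring = O := rfl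
  have hQπ : 0 < Q.ord (bcHom K L F₀ π) := by
    rw [Fermat.Agent.GJ.FF.ord_pos_iff_mem_nonunits Q hbπ0, hQO]
    exact hbπ
  have hnt : (resVal K L F₀ Q).IsNontrivial := ⟨π, hπ0, ne_of_gt hQπ⟩
  have hPeq : P = IntVal.placeOf hnt := by
    apply PlaceB.eq_of_le
    intro f hf
    rw [IntVal.placeOf_toValuationSubring, IntVal.mem_valuationSubring_iff]
    by_cases hf0 : f = 0
    · left; exact hf0
    right
    rw [resVal_apply, PlaceB.ord_nonneg_iff Q (bcHom_ne_zero K L F₀ hf0), hQO]
    exact hO0 f ((mem_ordGE_zero_iff P f).mpr hf)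
  refine ⟨Q, IntVal.mult hnt, IntVal.mult_pos hnt, fun f => ?_⟩
  by_cases hf0 : f = 0
  · subst hf0; simp
  have := IntVal.eq_mult_mul_ord hnt hf0
  rw [resVal_apply, ← hPeq] at this
  exact this

end Weak

/-! ### Constant field extensions are unramified -/

section Count

open Fermat.Agent.GJ.FF.PrincipalOf

/-- `e = 1`, given the two statements of brick GEN as hypotheses. -/
theorem exists_place_over_aux [IsAlgClosed K] (x₀ : ↥(laurentBaseChange K F₀)) [IsGen K x₀]
    (hgen : ∀ x : ↥(laurentBaseChange K F₀), IsGen K x → IsGen L (bcHom K L F₀ x))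
    (hfin : ∀ x : ↥(laurentBaseChange K F₀), IsGen K x →
      Module.finrank L⟮bcHom K L F₀ x⟯ ↥(laurentBaseChange L F₀)
        ≤ Module.finrank K⟮x⟯ ↥(laurentBaseChange K F₀))
    (P : Place K ↥(laurentBaseChange K F₀)) :
    ∃ Q : Place L ↥(laurentBaseChange L F₀),
      ∀ f : ↥(laurentBaseChange K F₀), Q.ord (bcHom K L F₀ f) = P.ord f := by
  classical
  -- a uniformizer of `P` and the generators
  set π : ↥(laurentBaseChange K F₀) := RRh45.unif P with hπ
  have hπ0 : π ≠ 0 := RRh45.unif_ne_zero P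
  have hπord : P.ord π = 1 := RRh45.ord_unif P
  have htr : Transcendental K π :=
    Fermat.Agent.GJ.FF.transcendental_of_ord_pos P (by rw [hπord]; norm_num)
  have hGK : IsGen K π := IsGen.of_transcendental x₀ htr
  have hGL : IsGen L (bcHom K L F₀ π) := hgen π hGK
  set y : ↥(laurentBaseChange L F₀) := bcHom K L F₀ π with hy
  have hy0 : y ≠ 0 := bcHom_ne_zero K L F₀ hπ0
  have hFRK : FiniteResidues K ↥(laurentBaseChange K F₀) :=
    Fermat.Agent.GJ.FF.finiteResidues (K := K) x₀
  have hFRL : FiniteResidues L ↥(laurentBaseChange L F₀) :=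
    Fermat.Agent.GJ.FF.finiteResidues (K := L) y
  have hfdK : FiniteDimensional K⟮π⟯ ↥(laurentBaseChange K F₀) := hGK.finite
  have hfdL : FiniteDimensional L⟮y⟯ ↥(laurentBaseChange L F₀) := hGL.finite
  -- the zeros of `π`
  have hZfin := Fermat.Agent.RR.Bound.finite_zeros (K := K) π hπ0
  set Z : Finset (Place K ↥(laurentBaseChange K F₀)) := hZfin.toFinset with hZ
  have hmemZ : ∀ v, v ∈ Z ↔ 0 < v.ord π := by
    intro v
    rw [hZ, Set.Finite.mem_toFinset]
    rfl
  have hPZ : P ∈ Z := by rw [hmemZ, hπord]; norm_num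
  -- `[F_K : K(π)] = Σ_{zeros} ord`
  have H := hyp_of_isGen (K := K) x₀
  have hdeg := degree_eq_finrank_of_zeros x₀ htr (zeroDivisor H π) (fun v => zeroDivisor_apply H π v)
  have hsupp : (zeroDivisor H π).support = Z := by
    ext v
    rw [Finsupp.mem_support_iff, zeroDivisor_apply, hmemZ]
    constructor
    · intro h
      by_contra hle
      exact h (max_eq_right (not_lt.mp hle))
    · intro h
      rw [max_eq_left h.le]
      exact ne_of_gt h
  have hnK : (Module.finrank K⟮π⟯ ↥(laurentBaseChange K F₀) : ℤ) = ∑ v ∈ Z, v.ord π := by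
    rw [← hdeg, degree_eq_sum', hsupp]
    refine Finset.sum_congr rfl fun v hv => ?_
    rw [zeroDivisor_apply, max_eq_left ((hmemZ v).mp hv).le, PlaceB.deg_eq_one v x₀]
    simp
  -- places above
  choose Qf ef hef hQf using fun P' : Place K ↥(laurentBaseChange K F₀) =>
    exists_place_over_weak_aux K L F₀ y P'
  have hinj : Function.Injective Qf := by
    intro P1 P2 h12
    apply PlaceB.eq_of_le
    intro f hf
    by_cases hf0 : f = 0
    · rw [hf0]; exact P2.toValuationSubring.zero_mem
    rw [← PlaceB.ord_nonneg_iff P1 hf0] at hf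
    rw [← PlaceB.ord_nonneg_iff P2 hf0]
    have h1 := hQf P1 f
    have h2 := hQf P2 f
    rw [h12] at h1
    have h3 : ef P1 * P1.ord f = ef P2 * P2.ord f := by rw [← h1, ← h2]
    have h4 : 0 ≤ ef P2 * P2.ord f := by
      rw [← h3]; exact mul_nonneg (hef P1).le hf
    by_contra hneg
    have : ef P2 * P2.ord f < 0 := mul_neg_of_pos_of_neg (hef P2) (not_le.mp hneg)
    linarith
  set S : Finset (Place L ↥(laurentBaseChange L F₀)) := Z.image Qf with hS
  have hpos : ∀ Q ∈ S, 0 < Q.ord y := by
    intro Q hQ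
    obtain ⟨P', hP', rfl⟩ := Finset.mem_image.mp hQ
    rw [hy, hQf P' π]
    exact mul_pos (hef P') ((hmemZ P').mp hP')
  have hle := Fermat.Agent.RR.Bound.sum_ord_mul_deg_le_finrank S (fun v _ => inferInstance) y hy0 hpos
  rw [hS, Finset.sum_image (fun a _ b _ h => hinj h)] at hle
  -- compare
  have hfinle : (Module.finrank L⟮y⟯ ↥(laurentBaseChange L F₀) : ℤ)
      ≤ Module.finrank K⟮π⟯ ↥(laurentBaseChange K F₀) := by exact_mod_cast hfin π hGK
  have hterm : ∀ v ∈ Z, 0 ≤ (Qf v).ord y * ((Qf v).deg : ℤ) - v.ord π := by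
    intro v hv
    have h1 : (1 : ℤ) ≤ ef v := hef v
    have h2 : (1 : ℤ) ≤ (Qf v).deg := by exact_mod_cast RRh45.deg_pos (Qf v)
    have h3 : 0 < v.ord π := (hmemZ v).mp hv
    rw [hy, hQf v π]
    nlinarith [mul_le_mul h1 h2 (by norm_num) (by linarith : (0 : ℤ) ≤ ef v)]
  have hsumle : ∑ v ∈ Z, ((Qf v).ord y * ((Qf v).deg : ℤ) - v.ord π) ≤ 0 := by
    rw [Finset.sum_sub_distrib]
    linarith
  have hP0 : (Qf P).ord y * ((Qf P).deg : ℤ) - P.ord π ≤ 0 :=
    le_trans (Finset.single_le_sum hterm hPZ) hsumle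
  -- `e = 1`
  have he1 : ef P = 1 := by
    have h1 : (1 : ℤ) ≤ ef P := hef P
    have h2 : (1 : ℤ) ≤ (Qf P).deg := by exact_mod_cast RRh45.deg_pos (Qf P)
    rw [hy, hQf P π, hπord, mul_one] at hP0
    nlinarith
  refine ⟨Qf P, fun f => ?_⟩
  rw [hQf P f, he1, one_mul]

end Count

/-! ### The statements of the skeleton -/

/-- lying over: some place of `F_L` restricts to `P`. -/
theorem exists_place_over_weak [IsAlgClosed K] [IsAlgClosed L] (x₀ : ↥(laurentBaseChange K F₀))
    [IsGen K x₀] (P : Place K ↥(laurentBaseChange K F₀)) :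
    ∃ Q : Place L ↥(laurentBaseChange L F₀), ∃ e : ℤ, 0 < e ∧
      ∀ f : ↥(laurentBaseChange K F₀), Q.ord (bcHom K L F₀ f) = e * P.ord f := by
  have : CharZero K := charZero_of_injective_algebraMap (algebraMap ℚ K).injective
  have : IsGen L (bcHom K L F₀ x₀) := isGen_bcHom K L F₀ x₀
  exact exists_place_over_weak_aux K L F₀ (bcHom K L F₀ x₀) P

/-- constant field extensions are unramified: counting on both sides forces `e = 1`. -/
theorem exists_place_over [IsAlgClosed K] [IsAlgClosed L] (x₀ : ↥(laurentBaseChange K F₀))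
    [IsGen K x₀] (P : Place K ↥(laurentBaseChange K F₀)) :
    ∃ Q : Place L ↥(laurentBaseChange L F₀),
      ∀ f : ↥(laurentBaseChange K F₀), Q.ord (bcHom K L F₀ f) = P.ord f := by
  have : CharZero K := charZero_of_injective_algebraMap (algebraMap ℚ K).injective
  exact exists_place_over_aux K L F₀ x₀
    (fun x hx => @isGen_bcHom K L _ _ _ _ _ _ F₀ _ x hx)
    (fun x hx => @finrank_bcHom_le K L _ _ _ _ _ _ F₀ _ x hx) P

end Fermat.Agent.GJ.Desc
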