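/-
GATE-J / J2-DESC, brick PL (helper99): GAUSS EXTENSION of a valuation along a constant field
extension.  Mathlib only.

Setting: fields `K ⊆ L`, `FK ⊆ FL` with `K ⊆ FK`, `L ⊆ FL`, a `K`-basis `b` of `L` whose image in `FL`
is linearly independent over `FK` (linear disjointness) and such that every element of `FL` is a
quotient of `FK`-combinations of constants of `L`.  A valuation `vP` on `FK`, trivial on `K`, with
residue field `K` (`hres`), extends to the valuation
`W (∑ f_j • b_j) = max_j vP (f_j)` on the `FK`-span of `L` and then to `FL`; the extension restricts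
to `vP` on `FK` (ramification index one) and is trivial on `L`.
-/
import Mathlib

set_option autoImplicit false
set_option linter.unusedSectionVars false

noncomputable section

namespace Fermat.Agent.GJ.Desc.GaussExt

open Module

variable {K L FK FL ι : Type*} [Field K] [Field L] [Field FK] [Field FL]
  [Algebra K L] [Algebra K FK] [Algebra L FL] [Algebra FK FL] [Algebra K FL]
  [IsScalarTower K FK FL] [IsScalarTower K L FL]

variable (FK) in
/-- the `FK`-linear map `(f_j) ↦ ∑ f_j • b_j` -/
def Phi (b : Basis ι K L) : (ι →₀ FK) →ₗ[FK] FL :=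
  Finsupp.linearCombination FK (fun j => algebraMap L FL (b j))

variable (FK) in
/-- coordinates of a constant -/
def cst (b : Basis ι K L) (c : L) : ι →₀ FK :=
  (b.repr c).mapRange (algebraMap K FK) (map_zero _)

variable (b : Basis ι K L)

omit [Algebra K FL] [IsScalarTower K FK FL] [IsScalarTower K L FL] in
theorem Phi_apply (f : ι →₀ FK) :
    Phi FK (FL := FL) b f = f.sum fun j fj => fj • algebraMap L FL (b j) := by
  rw [Phi, Finsupp.linearCombination_apply]

omit [Algebra K FL] [IsScalarTower K FK FL] [IsScalarTower K L FL] [Algebra FK FL] [Algebra L FL] in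
theorem cst_apply (c : L) (m : ι) : cst FK b c m = algebraMap K FK (b.repr c m) := by
  rw [cst, Finsupp.mapRange_apply]

theorem Phi_cst (c : L) : Phi FK (FL := FL) b (cst FK b c) = algebraMap L FL c := by
  rw [Phi_apply, cst, Finsupp.sum_mapRange_index (by intro j; simp)]
  conv_rhs => rw [← b.linearCombination_repr c, Finsupp.linearCombination_apply,
    map_finsuppSum]
  refine Finsupp.sum_congr fun j _ => ?_
  rw [algebraMap_smul, Algebra.smul_def, Algebra.smul_def, map_mul,
    IsScalarTower.algebraMap_apply K L FL]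

/-- the product transported to coordinates -/
def mulF (f g : ι →₀ FK) : ι →₀ FK :=
  f.sum fun j fj => g.sum fun k gk => (fj * gk) • cst FK b (b j * b k)

theorem Phi_mulF (f g : ι →₀ FK) :
    Phi FK (FL := FL) b (mulF b f g) = Phi FK b f * Phi FK b g := by
  rw [mulF, map_finsuppSum, Phi_apply b f, Phi_apply b g, Finsupp.sum_mul]
  refine Finsupp.sum_congr fun j _ => ?_
  rw [map_finsuppSum, Finsupp.mul_sum]
  refine Finsupp.sum_congr fun k _ => ?_
  rw [map_smul, Phi_cst, map_mul, smul_mul_smul_comm]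

theorem mulF_apply (f g : ι →₀ FK) (m : ι) :
    mulF b f g m = ∑ j ∈ f.support, ∑ k ∈ g.support,
      (f j * g k) * algebraMap K FK (b.repr (b j * b k) m) := by
  rw [mulF, Finsupp.sum, Finsupp.finsetSum_apply]
  refine Finset.sum_congr rfl fun j _ => ?_
  rw [Finsupp.sum, Finsupp.finsetSum_apply]
  refine Finset.sum_congr rfl fun k _ => ?_
  rw [Finsupp.smul_apply, cst_apply, smul_eq_mul]

/-! ### the Gauss valuation on coordinates -/

variable (vP : Valuation FK (WithZero (Multiplicative ℤ)))

/-- `W f = max_j vP (f j)` -/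
def W (f : ι →₀ FK) : WithZero (Multiplicative ℤ) := f.support.sup fun j => vP (f j)

theorem le_W (f : ι →₀ FK) (j : ι) : vP (f j) ≤ W vP f := by
  by_cases hj : j ∈ f.support
  · exact Finset.le_sup (f := fun j => vP (f j)) hj
  · rw [Finsupp.notMem_support_iff.1 hj, map_zero]
    exact zero_le

theorem W_le {f : ι →₀ FK} {a : WithZero (Multiplicative ℤ)} (h : ∀ j, vP (f j) ≤ a) :
    W vP f ≤ a :=
  Finset.sup_le fun j _ => h j

theorem exists_eq_W {f : ι →₀ FK} (hf : f ≠ 0) : ∃ j ∈ f.support, vP (f j) = W vP f := by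
  obtain ⟨j, hj, h⟩ := Finset.exists_mem_eq_sup f.support (Finsupp.support_nonempty_iff.2 hf)
    (fun j => vP (f j))
  exact ⟨j, hj, h.symm⟩

@[simp]
theorem W_zero : W vP (0 : ι →₀ FK) = 0 := by
  simp [W]

theorem W_eq_zero_iff {f : ι →₀ FK} : W vP f = 0 ↔ f = 0 := by
  constructor
  · intro h
    by_contra hf
    obtain ⟨j, hj, hj'⟩ := exists_eq_W vP hf
    rw [h] at hj'
    exact (Finsupp.mem_support_iff.1 hj) ((Valuation.zero_iff vP).1 hj')
  · rintro rfl
    exact W_zero vP

theorem W_add_le (f g : ι →₀ FK) : W vP (f + g) ≤ max (W vP f) (W vP g) := by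
  refine W_le vP fun j => ?_
  rw [Finsupp.add_apply]
  exact (vP.map_add _ _).trans (max_le_max (le_W vP f j) (le_W vP g j))

theorem W_smul (h : FK) (f : ι →₀ FK) : W vP (h • f) = vP h * W vP f := by
  apply le_antisymm
  · refine W_le vP fun j => ?_
    rw [Finsupp.smul_apply, smul_eq_mul, map_mul]
    exact mul_le_mul_right (le_W vP f j) _
  · by_cases hf : f = 0
    · subst hf
      simp
    · obtain ⟨j, _, hj⟩ := exists_eq_W vP hf
      rw [← hj, ← map_mul]
      have := le_W vP (h • f) j
      rwa [Finsupp.smul_apply, smul_eq_mul] at this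

theorem W_neg (f : ι →₀ FK) : W vP (-f) = W vP f := by
  have := W_smul vP (-1 : FK) f
  rwa [neg_one_smul, Valuation.map_neg, map_one, one_mul] at this

variable (hK : ∀ k : K, k ≠ 0 → vP (algebraMap K FK k) = 1)

include hK in
theorem vP_algebraMap_le (k : K) : vP (algebraMap K FK k) ≤ 1 := by
  by_cases hk : k = 0
  · subst hk
    rw [map_zero, map_zero]
    exact zero_le
  · exact (hK k hk).le

include hK in
theorem W_cst {c : L} (hc : c ≠ 0) : W vP (cst FK b c) = 1 := by
  apply le_antisymm
  · refine W_le vP fun j => ?_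
    rw [cst_apply]
    exact vP_algebraMap_le vP hK _
  · have hne : b.repr c ≠ 0 := by
      intro h
      exact hc (b.repr.map_eq_zero_iff.1 h)
    obtain ⟨j, hj⟩ := Finsupp.ne_iff.1 hne
    have hj' : b.repr c j ≠ 0 := by simpa using hj
    have := le_W vP (cst FK b c) j
    rwa [cst_apply, hK _ hj'] at this

/-! ### multiplicativity -/

variable (hres : ∀ x : FK, vP x ≤ 1 → ∃ k : K, vP (x - algebraMap K FK k) < 1)

/-- a residue of `x` (junk if `x` is not integral) -/
def res (x : FK) : K := if h : vP x ≤ 1 then (hres x h).choose else 0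

theorem res_spec {x : FK} (h : vP x ≤ 1) : vP (x - algebraMap K FK (res vP hres x)) < 1 := by
  rw [res, dif_pos h]
  exact (hres x h).choose_spec

theorem res_ne_zero {x : FK} (h : vP x = 1) : res vP hres x ≠ 0 := by
  intro h0
  have := res_spec vP hres h.le
  rw [h0, map_zero, sub_zero, h] at this
  exact lt_irrefl _ this

include hK in
theorem vP_mul_sub_lt {x y : FK} (hx : vP x ≤ 1) (hy : vP y ≤ 1) :
    vP (x * y - algebraMap K FK (res vP hres x * res vP hres y)) < 1 := by
  have h1 := res_spec vP hres hx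
  have h2 := res_spec vP hres hy
  have e : x * y - algebraMap K FK (res vP hres x * res vP hres y)
      = (x - algebraMap K FK (res vP hres x)) * y
        + algebraMap K FK (res vP hres x) * (y - algebraMap K FK (res vP hres y)) := by
    rw [map_mul]; ring
  rw [e]
  refine lt_of_le_of_lt (vP.map_add _ _) (max_lt ?_ ?_)
  · rw [map_mul]
    calc vP (x - algebraMap K FK (res vP hres x)) * vP y
        ≤ vP (x - algebraMap K FK (res vP hres x)) * 1 := mul_le_mul_right hy _
      _ < 1 := by rwa [mul_one]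
  · rw [map_mul]
    calc vP (algebraMap K FK (res vP hres x)) * vP (y - algebraMap K FK (res vP hres y))
        ≤ 1 * vP (y - algebraMap K FK (res vP hres y)) :=
          mul_le_mul_left (vP_algebraMap_le vP hK _) _
      _ < 1 := by rwa [one_mul]

/-- the reduction of `∑ f_j • b_j` -/
def bar (f : ι →₀ FK) : L := ∑ j ∈ f.support, res vP hres (f j) • b j

theorem bar_ne_zero {f : ι →₀ FK} (hf : W vP f = 1) : bar b vP hres f ≠ 0 := by
  have hf0 : f ≠ 0 := by
    rintro rfl
    rw [W_zero] at hf
    exact zero_ne_one hf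
  obtain ⟨j, hj, hj'⟩ := exists_eq_W vP hf0
  rw [hf] at hj'
  intro h0
  have := (linearIndependent_iff'.1 b.linearIndependent) f.support
    (fun j => res vP hres (f j)) h0 j hj
  exact res_ne_zero vP hres hj' this

theorem repr_bar_mul (f g : ι →₀ FK) (m : ι) :
    b.repr (bar b vP hres f * bar b vP hres g) m
      = ∑ j ∈ f.support, ∑ k ∈ g.support,
          (res vP hres (f j) * res vP hres (g k)) * b.repr (b j * b k) m := by
  rw [bar, bar, Finset.sum_mul_sum]
  rw [map_sum, Finsupp.finsetSum_apply]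
  refine Finset.sum_congr rfl fun j _ => ?_
  rw [map_sum, Finsupp.finsetSum_apply]
  refine Finset.sum_congr rfl fun k _ => ?_
  rw [smul_mul_smul_comm, map_smul, Finsupp.smul_apply, smul_eq_mul]

include hK in
theorem vP_mulF_sub_lt {f g : ι →₀ FK} (hf : W vP f = 1) (hg : W vP g = 1) (m : ι) :
    vP (mulF b f g m - algebraMap K FK (b.repr (bar b vP hres f * bar b vP hres g) m)) < 1 := by
  rw [mulF_apply, repr_bar_mul, map_sum, ← Finset.sum_sub_distrib]
  refine Valuation.map_sum_lt vP one_ne_zero fun j _ => ?_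
  rw [map_sum, ← Finset.sum_sub_distrib]
  refine Valuation.map_sum_lt vP one_ne_zero fun k _ => ?_
  have hj : vP (f j) ≤ 1 := hf ▸ le_W vP f j
  have hk : vP (g k) ≤ 1 := hg ▸ le_W vP g k
  rw [map_mul (algebraMap K FK), ← sub_mul, map_mul]
  calc vP (f j * g k - algebraMap K FK (res vP hres (f j) * res vP hres (g k)))
        * vP (algebraMap K FK (b.repr (b j * b k) m))
      ≤ vP (f j * g k - algebraMap K FK (res vP hres (f j) * res vP hres (g k))) * 1 :=
        mul_le_mul_right (vP_algebraMap_le vP hK _) _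
    _ < 1 := by
        rw [mul_one]
        exact vP_mul_sub_lt vP hK hres hj hk

include hK hres in
theorem W_mulF_of_one {f g : ι →₀ FK} (hf : W vP f = 1) (hg : W vP g = 1) :
    W vP (mulF b f g) = 1 := by
  have key : ∀ m, mulF b f g m
      = algebraMap K FK (b.repr (bar b vP hres f * bar b vP hres g) m)
        + (mulF b f g m
            - algebraMap K FK (b.repr (bar b vP hres f * bar b vP hres g) m)) := by
    intro m; ring
  apply le_antisymm
  · refine W_le vP fun m => ?_
    rw [key m]
    exact (vP.map_add _ _).trans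
      (max_le (vP_algebraMap_le vP hK _) (vP_mulF_sub_lt b vP hK hres hf hg m).le)
  · have hne : bar b vP hres f * bar b vP hres g ≠ 0 :=
      mul_ne_zero (bar_ne_zero b vP hres hf) (bar_ne_zero b vP hres hg)
    have hne' : b.repr (bar b vP hres f * bar b vP hres g) ≠ 0 := fun h =>
      hne (b.repr.map_eq_zero_iff.1 h)
    obtain ⟨m, hm⟩ := Finsupp.ne_iff.1 hne'
    have hm' : b.repr (bar b vP hres f * bar b vP hres g) m ≠ 0 := by simpa using hm
    have h1 : vP (mulF b f g m) = 1 := by
      rw [key m, Valuation.map_add_eq_of_lt_left, hK _ hm']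
      rw [hK _ hm']
      exact vP_mulF_sub_lt b vP hK hres hf hg m
    rw [← h1]
    exact le_W vP _ m

variable (hLD : LinearIndependent FK fun j => algebraMap L FL (b j))

include hLD in
theorem Phi_injective : Function.Injective (Phi FK (FL := FL) b) := hLD

include hLD in
theorem mulF_smul_smul (s t : FK) (f g : ι →₀ FK) :
    mulF b (s • f) (t • g) = (s * t) • mulF b f g := by
  apply Phi_injective b hLD
  rw [Phi_mulF, map_smul, map_smul, map_smul, Phi_mulF, smul_mul_smul_comm]

include hK hres hLD in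
theorem W_mulF (f g : ι →₀ FK) : W vP (mulF b f g) = W vP f * W vP g := by
  by_cases hf : f = 0
  · subst hf
    have : mulF b (0 : ι →₀ FK) g = 0 := by simp [mulF]
    rw [this, W_zero, zero_mul]
  by_cases hg : g = 0
  · subst hg
    have : mulF b f (0 : ι →₀ FK) = 0 := by simp [mulF]
    rw [this, W_zero, mul_zero]
  obtain ⟨j, hj, hj'⟩ := exists_eq_W vP hf
  obtain ⟨k, hk, hk'⟩ := exists_eq_W vP hg
  have hfj : f j ≠ 0 := Finsupp.mem_support_iff.1 hj
  have hgk : g k ≠ 0 := Finsupp.mem_support_iff.1 hk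
  have hvj : vP (f j) ≠ 0 := (Valuation.ne_zero_iff vP).2 hfj
  have hvk : vP (g k) ≠ 0 := (Valuation.ne_zero_iff vP).2 hgk
  have h1 : W vP ((f j)⁻¹ • f) = 1 := by
    rw [W_smul, ← hj', map_inv₀, inv_mul_cancel₀ hvj]
  have h2 : W vP ((g k)⁻¹ • g) = 1 := by
    rw [W_smul, ← hk', map_inv₀, inv_mul_cancel₀ hvk]
  have h3 := W_mulF_of_one b vP hK hres h1 h2
  rw [mulF_smul_smul b hLD, W_smul, map_mul, map_inv₀, map_inv₀] at h3
  rw [← hj', ← hk']
  have h4 : W vP (mulF b f g) = vP (f j) * vP (g k) * ((vP (f j))⁻¹ * (vP (g k))⁻¹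
      * W vP (mulF b f g)) := by
    rw [← mul_assoc, mul_mul_mul_comm, mul_inv_cancel₀ hvj, mul_inv_cancel₀ hvk, one_mul, one_mul]
  rw [h4, h3, mul_one]

/-! ### the subring `FK ⬝ L` and its valuation -/

/-- the `FK`-span of the constants of `L`, as a subring of `FL` -/
def ringR : Subring FL where
  carrier := Set.range (Phi FK (FL := FL) b)
  mul_mem' := by
    rintro _ _ ⟨f, rfl⟩ ⟨g, rfl⟩
    exact ⟨mulF b f g, Phi_mulF b f g⟩
  one_mem' := ⟨cst FK b 1, by rw [Phi_cst, map_one]⟩
  add_mem' := by
    rintro _ _ ⟨f, rfl⟩ ⟨g, rfl⟩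
    exact ⟨f + g, map_add _ _ _⟩
  zero_mem' := ⟨0, map_zero _⟩
  neg_mem' := by
    rintro _ ⟨f, rfl⟩
    exact ⟨-f, map_neg _ _⟩

/-- coordinates of an element of `ringR` -/
def comp (x : ringR (FK := FK) (FL := FL) b) : ι →₀ FK := x.2.choose

theorem Phi_comp (x : ringR (FK := FK) (FL := FL) b) : Phi FK b (comp b x) = (x : FL) :=
  x.2.choose_spec

include hLD in
theorem comp_eq {x : ringR (FK := FK) (FL := FL) b} {f : ι →₀ FK} (h : Phi FK b f = (x : FL)) :
    comp b x = f :=
  Phi_injective b hLD ((Phi_comp b x).trans h.symm)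

/-- the Gauss valuation on `ringR` -/
def gaussVal : Valuation (ringR (FK := FK) (FL := FL) b) (WithZero (Multiplicative ℤ)) where
  toFun x := W vP (comp b x)
  map_zero' := by
    show W vP (comp b 0) = 0
    rw [comp_eq b hLD (f := 0) (by simp), W_zero]
  map_one' := by
    show W vP (comp b 1) = 1
    rw [comp_eq b hLD (f := cst FK b 1) (by rw [Phi_cst]; simp), W_cst b vP hK one_ne_zero]
  map_mul' x y := by
    show W vP (comp b (x * y)) = W vP (comp b x) * W vP (comp b y)
    rw [comp_eq b hLD (f := mulF b (comp b x) (comp b y))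
      (by rw [Phi_mulF, Phi_comp, Phi_comp]; rfl), W_mulF b vP hK hres hLD]
  map_add_le_max' x y := by
    show W vP (comp b (x + y)) ≤ max (W vP (comp b x)) (W vP (comp b y))
    rw [comp_eq b hLD (f := comp b x + comp b y)
      (by rw [map_add, Phi_comp, Phi_comp]; rfl)]
    exact W_add_le vP _ _

theorem gaussVal_apply (x : ringR (FK := FK) (FL := FL) b) :
    gaussVal b vP hK hres hLD x = W vP (comp b x) := rfl

theorem gaussVal_eq_zero_iff (x : ringR (FK := FK) (FL := FL) b) :
    gaussVal b vP hK hres hLD x = 0 ↔ x = 0 := by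
  rw [gaussVal_apply, W_eq_zero_iff]
  constructor
  · intro h
    apply Subtype.ext
    rw [← Phi_comp b x, h, map_zero]
    rfl
  · rintro rfl
    exact comp_eq b hLD (by simp)

/-! ### extension to the fraction field -/

variable (hGEN : ∀ g : FL, ∃ x y : ι →₀ FK, Phi FK (FL := FL) b y ≠ 0 ∧
  g * Phi FK b y = Phi FK b x)

include hGEN in
theorem isFractionRing_ringR : IsFractionRing (ringR (FK := FK) (FL := FL) b) FL := by
  refine IsFractionRing.of_field _ _ fun z => ?_
  obtain ⟨x, y, hy, h⟩ := hGEN z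
  refine ⟨⟨Phi FK b x, x, rfl⟩, ⟨Phi FK b y, y, rfl⟩, ?_⟩
  show z = Phi FK b x / Phi FK b y
  rw [eq_div_iff hy, h]

include hK hres hLD hGEN in
/-- **Gauss extension.** -/
theorem exists_valuation_extension :
    ∃ vQ : Valuation FL (WithZero (Multiplicative ℤ)),
      (∀ f : FK, vQ (algebraMap FK FL f) = vP f) ∧
      (∀ c : L, c ≠ 0 → vQ (algebraMap L FL c) = 1) := by
  have := isFractionRing_ringR b hGEN
  have hS : nonZeroDivisors (ringR (FK := FK) (FL := FL) b)
      ≤ (gaussVal b vP hK hres hLD).supp.primeCompl := by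
    intro x hx hx'
    have hx'' : gaussVal b vP hK hres hLD x = 0 := (Valuation.mem_supp_iff _ x).1 hx'
    rw [gaussVal_eq_zero_iff] at hx''
    exact (mem_nonZeroDivisors_iff_ne_zero.1 hx) hx''
  refine ⟨(gaussVal b vP hK hres hLD).extendToLocalization hS FL, fun f => ?_, fun c hc => ?_⟩
  · have hmem : Phi FK (FL := FL) b (f • cst FK b 1) = algebraMap FK FL f := by
      rw [map_smul, Phi_cst, map_one, Algebra.algebraMap_eq_smul_one]
    have e : algebraMap FK FL f
        = algebraMap (ringR (FK := FK) (FL := FL) b) FL ⟨_, f • cst FK b 1, rfl⟩ := hmem.symm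
    rw [e, Valuation.extendToLocalization_apply_map_apply, gaussVal_apply,
      comp_eq b hLD (f := f • cst FK b 1) rfl, W_smul, W_cst b vP hK one_ne_zero, mul_one]
  · have e : algebraMap L FL c
        = algebraMap (ringR (FK := FK) (FL := FL) b) FL ⟨_, cst FK b c, rfl⟩ := (Phi_cst b c).symm
    rw [e, Valuation.extendToLocalization_apply_map_apply, gaussVal_apply,
      comp_eq b hLD (f := cst FK b c) rfl, W_cst b vP hK hc]

end Fermat.Agent.GJ.Desc.GaussExt
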