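/-
GATE-J / J2-DESC, brick PL (helper99): every place `P` of `F_K = laurentBaseChange K F₀` of degree
one has a place `Q` of `F_L = laurentBaseChange L F₀` above it with ramification index ONE:
`Q.ord (bcHom f) = P.ord f`.  Proof: Gauss extension (`GaussExt.lean`) of `P.adicValuation` to
`F_L`, using linear disjointness (`LinDisj.lean`, helper84).  No lying-over, no counting.
-/
import Fermat.Agent.GJ.Desc.GaussExt
import Fermat.Agent.GJ.Desc.LinDisj
import Fermat.Agent.S24.IntVal
import Fermat.Agent.S24.DegOne

set_option autoImplicit false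
set_option linter.unusedSectionVars false

noncomputable section

open HahnSeries IntermediateField AlgebraicCurve ModularCurve Module

namespace Fermat.Agent.GJ.Desc.PlaceOver

open Fermat.Agent.S24 Fermat.Agent.GJ.Desc Fermat.Agent.GJ.Desc.GaussExt

/-! ### from a `ℤᵐ⁰`-valued valuation to `IntVal` -/

section ToIntVal

variable {K F : Type*} [Field K] [Field F] [Algebra K F]

/-- a valuation trivial on the constants, as valuation data -/
def intValOfValuation (w : Valuation F (WithZero (Multiplicative ℤ)))
    (hw : ∀ c : K, c ≠ 0 → w (algebraMap K F c) = 1) : IntVal K F where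
  toFun f := -(WithZero.log (w f))
  map_mul' := by
    intro f g hf hg
    rw [map_mul, WithZero.log_mul ((Valuation.ne_zero_iff w).2 hf) ((Valuation.ne_zero_iff w).2 hg)]
    ring
  map_add' := by
    intro f g hf hg hfg
    have h1 := w.map_add f g
    have hf' := (Valuation.ne_zero_iff w).2 hf
    have hg' := (Valuation.ne_zero_iff w).2 hg
    have hfg' := (Valuation.ne_zero_iff w).2 hfg
    rcases le_max_iff.1 h1 with h | h
    · exact (min_le_left _ _).trans (neg_le_neg ((WithZero.log_le_log hfg' hf').2 h))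
    · exact (min_le_right _ _).trans (neg_le_neg ((WithZero.log_le_log hfg' hg').2 h))
  map_algebraMap' := by
    intro c hc
    rw [hw c hc, WithZero.log_one, neg_zero]

theorem intValOfValuation_apply (w : Valuation F (WithZero (Multiplicative ℤ)))
    (hw : ∀ c : K, c ≠ 0 → w (algebraMap K F c) = 1) (f : F) :
    intValOfValuation w hw f = -(WithZero.log (w f)) := rfl

end ToIntVal

/-! ### residue field `K` for places of degree one -/

section Residue

variable {K F : Type*} [Field K] [Field F] [Algebra K F]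

theorem adicValuation_algebraMap (P : Place K F) {k : K} (hk : k ≠ 0) :
    P.adicValuation (algebraMap K F k) = 1 := by
  have h := PlaceB.ord_algebraMap P hk
  have hne : P.adicValuation (algebraMap K F k) ≠ 0 :=
    P.adicValuation_ne_zero (by simpa using hk)
  unfold Place.ord at h
  have h' : WithZero.log (P.adicValuation (algebraMap K F k)) = 0 := by linarith
  rw [← WithZero.exp_log hne, h', WithZero.exp_zero]

theorem exists_residue_of_deg_eq_one (P : Place K F) (hdeg : P.deg = 1) (x : F)
    (hx : P.adicValuation x ≤ 1) :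
    ∃ k : K, P.adicValuation (x - algebraMap K F k) < 1 := by
  have hxmem : x ∈ P.toValuationSubring := (PlaceB.adicValuation_le_one_iff P x).1 hx
  set a : P.toValuationSubring := ⟨x, hxmem⟩ with ha
  have h1 : (1 : P.ResidueField) ≠ 0 := one_ne_zero
  obtain ⟨k, hk⟩ := (finrank_eq_one_iff_of_nonzero' (1 : P.ResidueField) h1).1 hdeg
    (IsLocalRing.residue P.toValuationSubring a)
  refine ⟨k, ?_⟩
  set d : P.toValuationSubring := a - algebraMap K P.toValuationSubring k with hd
  have hdres : IsLocalRing.residue P.toValuationSubring d = 0 := by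
    rw [hd, map_sub, ← hk, Algebra.smul_def, mul_one]
    have : IsLocalRing.residue P.toValuationSubring (algebraMap K P.toValuationSubring k)
        = algebraMap K P.ResidueField k := rfl
    rw [this, sub_self]
  have hdmem : d ∈ IsLocalRing.maximalIdeal P.toValuationSubring :=
    (IsLocalRing.residue_eq_zero_iff d).1 hdres
  have hcoe : (d : F) = x - algebraMap K F k := by
    rw [hd]; rfl
  rw [← hcoe]
  by_cases hd0 : d = 0
  · rw [hd0]
    simp
  · have hd0' : (d : F) ≠ 0 := by
      simpa [ne_eq, ZeroMemClass.coe_eq_zero] using hd0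
    exact (PlaceB.ord_pos_iff P hd0').1 ((PlaceB.ord_pos_iff_mem_maximalIdeal P hd0).2 hdmem)

end Residue

/-! ### the place above -/

variable (K L : Type*) [Field K] [Field L] [Algebra ℚ K] [Algebra ℚ L] [Algebra K L]
  [IsScalarTower ℚ K L]
variable (F₀ : IntermediateField ℚ (LaurentSeries ℚ))

/-- `F_L` as an `F_K`-algebra through `bcHom` (local instance) -/
@[reducible] def algFKFL : Algebra ↥(laurentBaseChange K F₀) ↥(laurentBaseChange L F₀) :=
  (bcHom K L F₀).toAlgebra

/-- `F_L` as a `K`-algebra through `L` (local instance) -/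
@[reducible] def algKFL : Algebra K ↥(laurentBaseChange L F₀) :=
  ((algebraMap L ↥(laurentBaseChange L F₀)).comp (algebraMap K L)).toAlgebra

attribute [local instance] algFKFL algKFL

theorem tower_K_L_FL : IsScalarTower K L ↥(laurentBaseChange L F₀) :=
  IsScalarTower.of_algebraMap_eq fun _ => rfl

theorem tower_K_FK_FL :
    IsScalarTower K ↥(laurentBaseChange K F₀) ↥(laurentBaseChange L F₀) :=
  IsScalarTower.of_algebraMap_eq fun a => (bcHom_algebraMap K L F₀ a).symm

attribute [local instance] tower_K_L_FL tower_K_FK_FL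

theorem algebraMap_FK_FL (f : ↥(laurentBaseChange K F₀)) :
    algebraMap ↥(laurentBaseChange K F₀) ↥(laurentBaseChange L F₀) f = bcHom K L F₀ f := rfl

/-- linear disjointness, in the shape of `GaussExt` -/
theorem linearIndependent_basis :
    LinearIndependent ↥(laurentBaseChange K F₀)
      fun j => algebraMap L ↥(laurentBaseChange L F₀) (Basis.ofVectorSpace K L j) := by
  rw [linearIndependent_iff']
  intro s g hg i hi
  refine eq_zero_of_sum_mul_bcHom K L F₀ s (fun j => Basis.ofVectorSpace K L j)
    (Basis.ofVectorSpace K L).linearIndependent g ?_ i hi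
  rw [← hg]
  refine Finset.sum_congr rfl fun j _ => ?_
  rw [Algebra.smul_def, algebraMap_FK_FL, mul_comm]

/-- elements of the `L`-algebra generated by `F₀` are `F_K`-combinations of constants -/
theorem exists_Phi_eq_of_mem_adjoin (z : LaurentSeries L)
    (hz : z ∈ Algebra.adjoin L (⇑(coeffEmb L) '' (F₀ : Set (LaurentSeries ℚ)))) :
    ∃ x : Basis.ofVectorSpaceIndex K L →₀ ↥(laurentBaseChange K F₀),
      ((Phi ↥(laurentBaseChange K F₀) (FL := ↥(laurentBaseChange L F₀))
        (Basis.ofVectorSpace K L) x : ↥(laurentBaseChange L F₀)) : LaurentSeries L) = z := by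
  induction hz using Algebra.adjoin_induction with
  | mem z hz =>
      obtain ⟨y, hy, rfl⟩ := hz
      refine ⟨(⟨coeffEmb K y, coeffEmb_mem_laurentBaseChange K hy⟩ :
        ↥(laurentBaseChange K F₀)) • cst ↥(laurentBaseChange K F₀) (Basis.ofVectorSpace K L) 1, ?_⟩
      rw [map_smul, Phi_cst, map_one, ← Algebra.algebraMap_eq_smul_one, algebraMap_FK_FL,
        bcHom_coeffEmb K L F₀ hy]
  | algebraMap c =>
      refine ⟨cst ↥(laurentBaseChange K F₀) (Basis.ofVectorSpace K L) c, ?_⟩
      rw [Phi_cst, IntermediateField.coe_algebraMap_apply]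
  | add x y _ _ hx hy =>
      obtain ⟨x', rfl⟩ := hx
      obtain ⟨y', rfl⟩ := hy
      exact ⟨x' + y', by rw [map_add, AddMemClass.coe_add]⟩
  | mul x y _ _ hx hy =>
      obtain ⟨x', rfl⟩ := hx
      obtain ⟨y', rfl⟩ := hy
      exact ⟨mulF (Basis.ofVectorSpace K L) x' y', by rw [Phi_mulF, MulMemClass.coe_mul]⟩

/-- every element of `F_L` is a quotient of `F_K`-combinations of constants -/
theorem exists_Phi_div (g : ↥(laurentBaseChange L F₀)) :
    ∃ x y : Basis.ofVectorSpaceIndex K L →₀ ↥(laurentBaseChange K F₀),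
      Phi ↥(laurentBaseChange K F₀) (FL := ↥(laurentBaseChange L F₀))
        (Basis.ofVectorSpace K L) y ≠ 0 ∧
      g * Phi ↥(laurentBaseChange K F₀) (Basis.ofVectorSpace K L) y
        = Phi ↥(laurentBaseChange K F₀) (Basis.ofVectorSpace K L) x := by
  have hg : (g : LaurentSeries L) ∈ IntermediateField.adjoin L
      (⇑(coeffEmb L) '' (F₀ : Set (LaurentSeries ℚ))) := g.2
  obtain ⟨r, hr, s, hs, hrs⟩ := IntermediateField.mem_adjoin_iff_div.1 hg
  obtain ⟨x, hx⟩ := exists_Phi_eq_of_mem_adjoin K L F₀ r hr
  obtain ⟨y, hy⟩ := exists_Phi_eq_of_mem_adjoin K L F₀ s hs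
  by_cases hs0 : s = 0
  · refine ⟨0, cst ↥(laurentBaseChange K F₀) (Basis.ofVectorSpace K L) 1, ?_, ?_⟩
    · rw [Phi_cst, map_one]
      exact one_ne_zero
    · have hg0 : g = 0 := by
        apply Subtype.ext
        rw [hrs, hs0, div_zero]
        rfl
      rw [hg0, zero_mul, map_zero]
  · refine ⟨x, y, ?_, ?_⟩
    · intro h0
      apply hs0
      rw [← hy, h0]
      rfl
    · apply Subtype.ext
      rw [MulMemClass.coe_mul, hy, hx, hrs, div_mul_cancel₀ _ hs0]

/-- **(PL)** a place of degree one of `F_K` has a place of `F_L` above it with `e = 1`. -/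
theorem exists_place_over_of_deg_eq_one (P : Place K ↥(laurentBaseChange K F₀))
    (hdeg : P.deg = 1) :
    ∃ Q : Place L ↥(laurentBaseChange L F₀),
      ∀ f : ↥(laurentBaseChange K F₀), Q.ord (bcHom K L F₀ f) = P.ord f := by
  obtain ⟨vQ, h1, h2⟩ := exists_valuation_extension (Basis.ofVectorSpace K L) P.adicValuation
    (fun k hk => adicValuation_algebraMap P hk) (exists_residue_of_deg_eq_one P hdeg)
    (linearIndependent_basis K L F₀) (exists_Phi_div K L F₀)
  -- the valuation data and its place
  have hV : ∀ f : ↥(laurentBaseChange K F₀),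
      intValOfValuation vQ h2 (bcHom K L F₀ f) = P.ord f := by
    intro f
    rw [intValOfValuation_apply, ← algebraMap_FK_FL, h1]
    rfl
  obtain ⟨π, hπ⟩ := IsDiscreteValuationRing.exists_irreducible P.toValuationSubring
  have hπ1 : P.ord (π : ↥(laurentBaseChange K F₀)) = 1 := P.ord_coe_irreducible hπ
  have hπ0 : (π : ↥(laurentBaseChange K F₀)) ≠ 0 := by
    simpa [ne_eq, ZeroMemClass.coe_eq_zero] using hπ.ne_zero
  have hbπ0 : bcHom K L F₀ (π : ↥(laurentBaseChange K F₀)) ≠ 0 :=
    (map_ne_zero_iff _ (bcHom_injective K L F₀)).2 hπ0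
  have hnt : (intValOfValuation vQ h2).IsNontrivial :=
    ⟨_, hbπ0, by rw [hV, hπ1]; exact one_ne_zero⟩
  have hm : IntVal.mult hnt = 1 := by
    have h3 := IntVal.eq_mult_mul_ord hnt hbπ0
    rw [hV, hπ1] at h3
    have hpos := IntVal.mult_pos hnt
    exact Int.eq_one_of_mul_eq_one_right hpos.le h3.symm
  refine ⟨IntVal.placeOf hnt, fun f => ?_⟩
  by_cases hf : f = 0
  · subst hf
    rw [map_zero, Place.ord_zero, Place.ord_zero]
  · have hbf : bcHom K L F₀ f ≠ 0 := (map_ne_zero_iff _ (bcHom_injective K L F₀)).2 hf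
    have h3 := IntVal.eq_mult_mul_ord hnt hbf
    rw [hm, one_mul, hV] at h3
    exact h3.symm

/-- **(PL)** in the shape of the skeleton: over algebraically closed constants every place has
degree one (T24 `PlaceB.deg_eq_one`). -/
theorem exists_place_over [IsAlgClosed K] (x₀ : ↥(laurentBaseChange K F₀)) [IsGen K x₀]
    (P : Place K ↥(laurentBaseChange K F₀)) :
    ∃ Q : Place L ↥(laurentBaseChange L F₀),
      ∀ f : ↥(laurentBaseChange K F₀), Q.ord (bcHom K L F₀ f) = P.ord f :=
  exists_place_over_of_deg_eq_one K L F₀ P (PlaceB.deg_eq_one P x₀)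

end Fermat.Agent.GJ.Desc.PlaceOver
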