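/-
GATE-J / J2-DESC (helper84): restriction of a place of `F_L` to `F_K` (as T24 `IntVal` data) and
the easy direction `p ∣ div u₀ ⇒ p ∣ div (bcHom u₀)`.
(Own namespace `Fermat.Agent.GJ.Desc.Res`: helper66's `Places.lean` has the same names in
`Fermat.Agent.GJ.Desc`.)
-/
import Fermat.Agent.GJ.Desc.Defs
import Fermat.Agent.S24.IntVal
import Fermat.Agent.S24.PlaceBasic

set_option autoImplicit false
set_option linter.unusedSectionVars false
set_option linter.unusedVariables false

noncomputable section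

open HahnSeries IntermediateField AlgebraicCurve ModularCurve

namespace Fermat.Agent.GJ.Desc.Res

open Fermat.Agent.S24 Fermat.Agent.GJ.Desc

variable (K L : Type*) [Field K] [Field L] [Algebra ℚ K] [Algebra ℚ L] [Algebra K L]
  [IsScalarTower ℚ K L]
variable (F₀ : IntermediateField ℚ (LaurentSeries ℚ))

/-- restriction of a place of `F_L` to `F_K` as valuation data -/
def resVal (Q : Place L ↥(laurentBaseChange L F₀)) : IntVal K ↥(laurentBaseChange K F₀) where
  toFun f := Q.ord (bcHom K L F₀ f)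
  map_mul' {f g} hf hg := by
    rw [map_mul]
    exact Q.ord_mul ((map_ne_zero _).mpr hf) ((map_ne_zero _).mpr hg)
  map_add' {f g} hf hg hfg := by
    rw [map_add]
    exact PlaceB.ord_add_ge Q ((map_ne_zero _).mpr hf) ((map_ne_zero _).mpr hg)
      (by rw [← map_add]; exact (map_ne_zero _).mpr hfg)
  map_algebraMap' c hc := by
    rw [bcHom_algebraMap]
    exact PlaceB.ord_algebraMap Q ((map_ne_zero _).mpr hc)

@[simp]
theorem resVal_apply (Q : Place L ↥(laurentBaseChange L F₀)) (f : ↥(laurentBaseChange K F₀)) :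
    resVal K L F₀ Q f = Q.ord (bcHom K L F₀ f) := rfl

/-- the restriction of `Q` is trivial, or a place `P` of `F_K` with `ord_Q ∘ bcHom = e · ord_P` -/
theorem resVal_trivial_or (Q : Place L ↥(laurentBaseChange L F₀)) :
    (∀ f : ↥(laurentBaseChange K F₀), Q.ord (bcHom K L F₀ f) = 0) ∨
    ∃ (P : Place K ↥(laurentBaseChange K F₀)) (e : ℤ), 0 < e ∧
      ∀ f : ↥(laurentBaseChange K F₀), Q.ord (bcHom K L F₀ f) = e * P.ord f := by
  by_cases h : (resVal K L F₀ Q).IsNontrivial
  · right
    refine ⟨IntVal.placeOf h, IntVal.mult h, IntVal.mult_pos h, fun f => ?_⟩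
    rcases eq_or_ne f 0 with rfl | hf
    · simp
    · exact IntVal.eq_mult_mul_ord h hf
  · left
    intro f
    by_contra hne
    apply h
    refine ⟨f, ?_, hne⟩
    rintro rfl
    simp at hne

/-- `(b→)`: `p ∣ div` is preserved by base change -/
theorem dvd_ord_bcHom (p : ℕ) (u₀ : ↥(laurentBaseChange K F₀))
    (h : ∀ P : Place K ↥(laurentBaseChange K F₀), (p : ℤ) ∣ P.ord u₀)
    (Q : Place L ↥(laurentBaseChange L F₀)) : (p : ℤ) ∣ Q.ord (bcHom K L F₀ u₀) := by
  rcases resVal_trivial_or K L F₀ Q with h0 | ⟨P, e, _, hP⟩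
  · rw [h0]
    exact dvd_zero _
  · rw [hP]
    exact Dvd.dvd.mul_left (h P) e

end Fermat.Agent.GJ.Desc.Res
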