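/-
GATE-J / J2-DESC (helper84): the DESC leaves of helper86's `GJ/J2/EigDesc.lean`
(`IsPowDesc`, `D1conv` unconditional; `D1`, `DescP` from the place-extension input `HOver`).
-/
import Fermat.Agent.GJ.J2.EigDesc
import Fermat.Agent.GJ.J2.KumFinE1
import Fermat.Agent.GJ.Desc.Final
import Fermat.Agent.GJ.Desc.Gen
import Fermat.Agent.GJ.Desc.ResVal
import Fermat.Agent.GJ.Desc.PlaceOver
import Fermat.Agent.GJ.Desc.Modular
import Fermat.Agent.RR.ModularBar

set_option autoImplicit false
set_option linter.unusedSectionVars false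
set_option linter.unusedVariables false

noncomputable section

open HahnSeries IntermediateField AlgebraicCurve ModularCurve

namespace Fermat.Agent.GJ.Desc.EigLeaves

open Fermat.Agent.GJ.KumGroup Fermat.Agent.S24 Fermat.Agent.GJ.Desc Fermat.Agent.GJ.EigAsm
open Fermat.Agent.GJ.Dict

attribute [local instance] Fermat.Agent.GJ.EigAsm.algKbC

variable (N : ℕ) [NeZero N]

/-- **(PL)** the remaining input: every place of `ℚ̄(X₀(N))` extends to `ℂ(X₀(N))` with `e = 1` -/
def HOver : Prop :=
  ∀ P : Place Kb (FK N), ∃ Q : Place ℂ (FC N), ∀ f : FK N, Q.ord (bcQ N f) = P.ord f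

variable (p : ℕ) [Fact p.Prime]

theorem isPowDesc : IsPowDesc N p := by
  intro u₀ v h
  have : CharZero Kb := charZero_of_injective_algebraMap (algebraMap ℚ Kb).injective
  exact isPow_of_bcHom_eq_pow Kb ℂ (modularFunctionFieldFull N) p (Fact.out : p.Prime).pos u₀ v h

theorem d1conv : D1conv N p := fun u₀ h Q =>
  Res.dvd_ord_bcHom Kb ℂ (modularFunctionFieldFull N) p u₀ h Q

variable {N} in
theorem d1_of_hover (hover : HOver N) : D1 N p := by
  intro u₀ h P
  obtain ⟨Q, hQ⟩ := hover P
  rw [← hQ u₀]
  exact h Q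

variable {N} in
theorem descP_of_hover (hover : HOver N) : DescP N p := by
  intro u hu hdiv
  have : CharZero Kb := charZero_of_injective_algebraMap (algebraMap ℚ Kb).injective
  have hgenK : IsGen Kb (jF N) := Fermat.Agent.RR.ModularBar.isGen_jF N
  have hgen : IsGen ℂ (bcHom Kb ℂ (modularFunctionFieldFull N) (jF N)) :=
    isGen_bcHom Kb ℂ (modularFunctionFieldFull N) (jF N)
  have : NeZero p := ⟨(Fact.out : p.Prime).ne_zero⟩
  exact descent_of_gen Kb ℂ (modularFunctionFieldFull N)
    (bcHom Kb ℂ (modularFunctionFieldFull N) (jF N)) hover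
    (Modular.exists_order_ne_zero N) p (Fact.out : p.Prime).pos
    (Modular.exists_finset_of_finite p (Fermat.Agent.GJ.KumFin.finite_kum_C N p)) u hu hdiv

/-- **(PL)** holds (helper99's Gauss extension `PlaceOver.exists_place_over`). -/
theorem hover : HOver N := by
  intro P
  have hgenK : IsGen Kb (jF N) := Fermat.Agent.RR.ModularBar.isGen_jF N
  exact PlaceOver.exists_place_over Kb ℂ (modularFunctionFieldFull N) (jF N) P

/-- **(D1)**, unconditional -/
theorem d1 : D1 N p := d1_of_hover p (hover N)

/-- **(DESC)**, unconditional: Kummer classes of `ℂ(X₀(N))` descend to `ℚ̄(X₀(N))` -/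
theorem descP : DescP N p := descP_of_hover p (hover N)

end Fermat.Agent.GJ.Desc.EigLeaves
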