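/-
GATE-J / J2-DESC (helper84): SKELETON = exact statements of the bricks of the descent `L → K`
(`K ⊆ L` algebraically closed of characteristic zero, e.g. `K = AlgebraicClosure ℚ`, `L = ℂ`) of
Kummer classes `{u ∈ F_Lˣ | p ∣ div u} / (F_Lˣ)^p` for the prelude function fields
`F_K = laurentBaseChange K F₀ ⊆ F_L = laurentBaseChange L F₀`.
THIS FILE CONTAINS `sorry` AND IS NEVER IMPORTED.  Each brick is proved in its own file
`Fermat/Agent/GJ/Desc/<Brick>.lean`, namespace `Fermat.Agent.GJ.Desc`, with these exact names.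
-/
import Fermat.Agent.GJ.Desc.LinDisj
import Fermat.Agent.S24.PrincipalGen
import Fermat.Agent.S24.IntVal
import Fermat.Agent.RR.RiemannBound

set_option autoImplicit false
set_option linter.unusedSectionVars false
set_option linter.unusedVariables false

noncomputable section

open HahnSeries IntermediateField AlgebraicCurve ModularCurve

namespace Fermat.Agent.GJ.DescSkeleton

open Fermat.Agent.GJ.Desc Fermat.Agent.S24

/-! ## Brick FO (Mathlib only): `Fermat/Agent/GJ/Desc/FixedField.lean` -/

section FO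

variable {K L : Type*} [Field K] [Field L] [Algebra K L]

/-- a transcendental element of an algebraically closed extension has infinitely many conjugates
(extend `{a}` to a transcendence basis `v`, translate `a ↦ a + n` on `Algebra.adjoin K (range v)`,
extend with `IsAlgClosure.equivOfEquiv` as in `IsAlgClosed.equivOfTranscendenceBasis`). -/
theorem infinite_orbit_of_transcendental [CharZero K] [IsAlgClosed L] {a : L}
    (ha : Transcendental K a) : (Set.range fun σ : L ≃ₐ[K] L => σ a).Infinite := sorry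

/-- elements with finitely many conjugates over an algebraically closed subfield are in it -/
theorem mem_range_algebraMap_of_finite_orbit [CharZero K] [IsAlgClosed K] [IsAlgClosed L] {a : L}
    (ha : (Set.range fun σ : L ≃ₐ[K] L => σ a).Finite) : a ∈ Set.range (algebraMap K L) := sorry

end FO

/-! ## Brick UE (Prelude + RR bricks, one function field, no base change):
`Fermat/Agent/GJ/Desc/UniqueEff.lean` -/

section UE

variable {K F : Type*} [Field K] [Field F] [Algebra K F]

/-- semilinear transport of Riemann–Roch spaces -/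
theorem smul_mem_riemannRochSpace (g : SemilinearAut K F) {D : Divisor K F} {f : F}
    (hf : f ∈ riemannRochSpace D) : g • f ∈ riemannRochSpace (g • D) := sorry

/-- **normalising function of a `p`-divisible principal divisor**: if `div u = p • D`, `n` minimal
with `L(D + n P∞) ≠ 0`, then `L(D + n P∞) = K w`; for every semilinear automorphism `g` fixing `P∞`
with `g u = u v^p` one gets `g w * v = c w` (because `g D = D + div v`). -/
theorem exists_normaliser [RRh45.FiniteResidues K F] [HasPrincipalDivisors K F]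
    (Pinf : Place K F) (hdeg : Pinf.deg = 1) (p : ℕ) (hp : 0 < p) (u : F) (hu : u ≠ 0)
    (hdiv : ∀ Q : Place K F, (p : ℤ) ∣ Q.ord u) :
    ∃ w : F, w ≠ 0 ∧ ∀ g : SemilinearAut K F, g • Pinf = Pinf → ∀ v : F, v ≠ 0 →
      g • u = u * v ^ p → ∃ c : K, c ≠ 0 ∧ (g • w) * v = algebraMap K F c * w := sorry

end UE

variable (K L : Type*) [Field K] [Field L] [Algebra ℚ K] [Algebra ℚ L] [Algebra K L]
  [IsScalarTower ℚ K L]
variable (F₀ : IntermediateField ℚ (LaurentSeries ℚ))

/-! ## Brick LD (helper84): `Fermat/Agent/GJ/Desc/Retract.lean` -/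

/-- coefficientwise application of a `K`-linear functional `L → K` -/
def retr (φ : L →ₗ[K] K) : LaurentSeries L →+ LaurentSeries K := sorry

theorem retr_coeff (φ : L →ₗ[K] K) (g : LaurentSeries L) (n : ℤ) :
    (retr K L φ g).coeff n = φ (g.coeff n) := sorry

theorem retr_coeffMap_mul (φ : L →ₗ[K] K) (h : LaurentSeries K) (g : LaurentSeries L) :
    retr K L φ (coeffMap (algebraMap K L) h * g) = h * retr K L φ g := sorry

/-- `F_L` is generated by `L` and the image of `F_K` -/
theorem adjoin_range_bcHom :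
    IntermediateField.adjoin L (Set.range (bcHom K L F₀)) = ⊤ := sorry

/-- every element of `F_L` is a quotient of `L`-linear combinations of elements of `F_K` -/
theorem exists_span_div (g : ↥(laurentBaseChange L F₀)) :
    ∃ a b : ↥(laurentBaseChange L F₀),
      a ∈ Submodule.span L (Set.range (bcHom K L F₀)) ∧
      b ∈ Submodule.span L (Set.range (bcHom K L F₀)) ∧ b ≠ 0 ∧ g = a / b := sorry

theorem retr_mem (φ : L →ₗ[K] K) (a : ↥(laurentBaseChange L F₀))
    (ha : a ∈ Submodule.span L (Set.range (bcHom K L F₀))) :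
    retr K L φ (a : LaurentSeries L) ∈ laurentBaseChange K F₀ := sorry

/-- **(LD-c)** an element of `F_L` all of whose coefficients lie in `K` comes from `F_K` -/
theorem mem_range_bcHom_of_coeff_mem (g : ↥(laurentBaseChange L F₀))
    (hg : ∀ n : ℤ, (g : LaurentSeries L).coeff n ∈ Set.range (algebraMap K L)) :
    g ∈ Set.range (bcHom K L F₀) := sorry

/-- **(LD-d)** injectivity of the base change on Kummer classes -/
theorem isPow_of_bcHom_eq_pow [IsAlgClosed K] (p : ℕ) (hp : 0 < p)
    (u₀ : ↥(laurentBaseChange K F₀)) (v : ↥(laurentBaseChange L F₀))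
    (h : bcHom K L F₀ u₀ = v ^ p) : ∃ v₀ : ↥(laurentBaseChange K F₀), u₀ = v₀ ^ p := sorry

/-! ## Brick GEN (helper84): `Fermat/Agent/GJ/Desc/Gen.lean` -/

theorem transcendental_bcHom {x : ↥(laurentBaseChange K F₀)} (hx : Transcendental K x) :
    Transcendental L (bcHom K L F₀ x) := sorry

theorem isGen_bcHom [CharZero K] (x : ↥(laurentBaseChange K F₀)) [IsGen K x] :
    IsGen L (bcHom K L F₀ x) := sorry

theorem finrank_bcHom_le [CharZero K] (x : ↥(laurentBaseChange K F₀)) [IsGen K x] :
    Module.finrank L⟮bcHom K L F₀ x⟯ ↥(laurentBaseChange L F₀)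
      ≤ Module.finrank K⟮x⟯ ↥(laurentBaseChange K F₀) := sorry

/-! ## Brick PL: `Fermat/Agent/GJ/Desc/Places.lean` -/

/-- restriction of a place of `F_L` to `F_K` as valuation data (T24 `IntVal`); if nontrivial,
`IntVal.placeOf`, `IntVal.mult`, `IntVal.eq_mult_mul_ord` give the place below and `e`. -/
def resVal (Q : Place L ↥(laurentBaseChange L F₀)) : IntVal K ↥(laurentBaseChange K F₀) := sorry

theorem resVal_apply (Q : Place L ↥(laurentBaseChange L F₀)) (f : ↥(laurentBaseChange K F₀)) :
    resVal K L F₀ Q f = Q.ord (bcHom K L F₀ f) := sorry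

/-- `(b→)`: `p ∣ div` is preserved by base change (no `e = 1` needed) -/
theorem dvd_ord_bcHom (p : ℕ) (u₀ : ↥(laurentBaseChange K F₀))
    (h : ∀ P : Place K ↥(laurentBaseChange K F₀), (p : ℤ) ∣ P.ord u₀)
    (Q : Place L ↥(laurentBaseChange L F₀)) : (p : ℤ) ∣ Q.ord (bcHom K L F₀ u₀) := sorry

/-- lying over: some place of `F_L` restricts to `P` (prime of `Ax L (bcHom x)` over a maximal
ideal of `L·Ax K x` containing the centre of `P`; `1 ∉ L·𝔭` by `retr`). -/
theorem exists_place_over_weak [IsAlgClosed K] [IsAlgClosed L] (x₀ : ↥(laurentBaseChange K F₀))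
    [IsGen K x₀] (P : Place K ↥(laurentBaseChange K F₀)) :
    ∃ Q : Place L ↥(laurentBaseChange L F₀), ∃ e : ℤ, 0 < e ∧
      ∀ f : ↥(laurentBaseChange K F₀), Q.ord (bcHom K L F₀ f) = e * P.ord f := sorry

/-- constant field extensions are unramified: counting with T24 `sum_ord_fibre` on both sides and
`finrank_bcHom_le` forces `e = 1` (and uniqueness of `Q`). -/
theorem exists_place_over [IsAlgClosed K] [IsAlgClosed L] (x₀ : ↥(laurentBaseChange K F₀))
    [IsGen K x₀] (P : Place K ↥(laurentBaseChange K F₀)) :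
    ∃ Q : Place L ↥(laurentBaseChange L F₀),
      ∀ f : ↥(laurentBaseChange K F₀), Q.ord (bcHom K L F₀ f) = P.ord f := sorry

/-! ## Brick QP: `Fermat/Agent/GJ/Desc/QPlace.lean` -/

/-- the `q`-adic valuation data on `F_L` -/
def qVal : IntVal L ↥(laurentBaseChange L F₀) := sorry

theorem qVal_apply (g : ↥(laurentBaseChange L F₀)) :
    qVal L F₀ g = (g : LaurentSeries L).order := sorry

/-- the place `q = 0` of `F_L`, when some element of `F₀` has nonzero order -/
def qPlace (hq : ∃ f ∈ F₀, f.order ≠ 0) : Place L ↥(laurentBaseChange L F₀) := sorry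

theorem galAct_smul_qPlace (hq : ∃ f ∈ F₀, f.order ≠ 0) (σ : L ≃ₐ[K] L) :
    galAct K L F₀ σ • qPlace L F₀ hq = qPlace L F₀ hq := sorry

/-! ## MAIN: `Fermat/Agent/GJ/Desc/Main.lean` -/

/-- **Descent of Kummer classes.**  `hfin`: the Kummer group of `F_L` is finite (over `ℂ`: from the
injection `κ_ℂ` into `Hom(Γ₀(N), μ_p)`). -/
theorem descent [IsAlgClosed K] [IsAlgClosed L] (x₀ : ↥(laurentBaseChange K F₀)) [IsGen K x₀]
    (hq : ∃ f ∈ F₀, f.order ≠ 0) (p : ℕ) (hp : 0 < p)
    (hfin : ∃ S : Finset ↥(laurentBaseChange L F₀), ∀ g : ↥(laurentBaseChange L F₀), g ≠ 0 →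
      (∀ Q : Place L ↥(laurentBaseChange L F₀), (p : ℤ) ∣ Q.ord g) →
      ∃ s ∈ S, ∃ v : ↥(laurentBaseChange L F₀), v ≠ 0 ∧ g = s * v ^ p)
    (u : ↥(laurentBaseChange L F₀)) (hu : u ≠ 0)
    (hdiv : ∀ Q : Place L ↥(laurentBaseChange L F₀), (p : ℤ) ∣ Q.ord u) :
    ∃ u₀ : ↥(laurentBaseChange K F₀), u₀ ≠ 0 ∧
      (∀ P : Place K ↥(laurentBaseChange K F₀), (p : ℤ) ∣ P.ord u₀) ∧
      ∃ v : ↥(laurentBaseChange L F₀), v ≠ 0 ∧ u = bcHom K L F₀ u₀ * v ^ p := sorry

end Fermat.Agent.GJ.DescSkeleton
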